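import Mathlib
import Fermat.Prelude.Def_HeckeGalois_EichlerShimura

/-!
# Program R, node (R1): the formal consequences of `SpecializationExists`

`SpecializationExists N p J → UnramifiedOutside N p J ∧ FrobeniusQuadratic N p J`, for an arbitrary
Hecke–Galois module `J` (generic in `K`, `L`, `J`).
-/

set_option autoImplicit false
set_option linter.unusedSectionVars false

namespace Fermat.Agent.Res

open ModularCurve

section

variable {K L : Type*} [Field K] [Field L] [Algebra K L]
variable (N p : ℕ) (J : Type*) [AddCommGroup J] [Module HeckeAlg J]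
  [DistribMulAction (L ≃ₐ[K] L) J] [SMulCommClass (L ≃ₐ[K] L) HeckeAlg J]

variable {J}

/-- Galois elements preserve `p`-power torsion. -/
theorem pow_smul_galois_smul_eq_zero {p n : ℕ} {x : J} (hx : p ^ n • x = 0) (σ : L ≃ₐ[K] L) :
    p ^ n • (σ • x) = 0 := by
  rw [← smul_comm σ (p ^ n) x, hx, smul_zero]

/-- Hecke operators preserve `p`-power torsion. -/
theorem pow_smul_hecke_smul_eq_zero {p n : ℕ} {x : J} (hx : p ^ n • x = 0) (T : HeckeAlg) :
    p ^ n • (T • x) = 0 := by
  rw [smul_comm (p ^ n) T x, hx, smul_zero]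

variable (J)

/-- **(R1a)** `SpecializationExists → UnramifiedOutside`. -/
theorem unramifiedOutside_of_specializationExists
    (h : SpecializationExists (K := K) (L := L) N p J) :
    UnramifiedOutside (K := K) (L := L) N p J := by
  intro ℓ hℓ hℓN A hA σ hσ x hx
  obtain ⟨J', _, _, sp, F, hsp, -⟩ := h ℓ hℓ hℓN A hA
  obtain ⟨n, hn⟩ := hx
  have h1 : sp (σ • x - x) = 0 := by
    rw [map_sub, hsp.inertia_comm σ hσ x, sub_self]
  have h2 : σ • x - x = 0 := by
    refine hsp.injective_torsion _ ⟨n, ?_⟩ h1
    rw [smul_sub, pow_smul_galois_smul_eq_zero hn σ, hn, sub_self]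
  exact sub_eq_zero.mp h2

/-- **(R1b)** `SpecializationExists → FrobeniusQuadratic`. -/
theorem frobeniusQuadratic_of_specializationExists
    (h : SpecializationExists (K := K) (L := L) N p J) :
    FrobeniusQuadratic (K := K) (L := L) N p J := by
  intro ℓ hℓ hℓN A hA σ hσ x hx
  obtain ⟨J', _, _, sp, F, hsp, hF⟩ := h ℓ hℓ hℓN A hA
  obtain ⟨n, hn⟩ := hx
  refine hsp.injective_torsion _ ⟨n, ?_⟩ ?_
  · have h1 : p ^ n • (σ • σ • x) = 0 :=
      pow_smul_galois_smul_eq_zero (pow_smul_galois_smul_eq_zero hn σ) σ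
    have h2 : p ^ n • (heckeGen ⟨ℓ, hℓ⟩ • (σ • x)) = 0 :=
      pow_smul_hecke_smul_eq_zero (pow_smul_galois_smul_eq_zero hn σ) _
    have h3 : p ^ n • (ℓ • x) = 0 := by
      rw [smul_comm (p ^ n) ℓ x, hn, smul_zero]
    rw [smul_add, smul_sub, h1, h2, h3, sub_zero, add_zero]
  · rw [map_add, map_sub, hsp.frobenius_comm σ hσ, hsp.frobenius_comm σ hσ, hsp.hecke_comm,
      hsp.frobenius_comm σ hσ, map_nsmul]
    exact hF (sp x)

/-- **(R1)** `SpecializationExists` gives the two Galois-theoretic clauses of the reduced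
Eichler–Shimura datum. -/
theorem unramifiedOutside_and_frobeniusQuadratic
    (h : SpecializationExists (K := K) (L := L) N p J) :
    UnramifiedOutside (K := K) (L := L) N p J ∧ FrobeniusQuadratic (K := K) (L := L) N p J :=
  ⟨unramifiedOutside_of_specializationExists N p J h,
    frobeniusQuadratic_of_specializationExists N p J h⟩

/-- The reduced Eichler–Shimura datum from `SpecializationExists` and `EigenformSupport`. -/
theorem eichlerShimuraDataReduced_of (IsEig : Ideal HeckeAlg → Prop)
    (h : SpecializationExists (K := K) (L := L) N p J) (hsupp : EigenformSupport p J IsEig) :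
    EichlerShimuraDataReduced (K := K) (L := L) N p J IsEig :=
  ⟨unramifiedOutside_of_specializationExists N p J h,
    frobeniusQuadratic_of_specializationExists N p J h, hsupp⟩

end

end Fermat.Agent.Res
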