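import Mathlib
import Fermat.Prelude.Def_ModularCurve_ArithmeticGalois
import Fermat.Agent.Red.FFLemmas
import Fermat.Agent.Val.RiemannPkgBar

/-!
# Program R, node (R2): open stabilisers on `JZero N`

`G_ℚ` acts on `JZero N = Pic⁰(ℚ̄(X₀(N)))` through the coefficients of `q`-expansions.  Every
element of `JZero N` is fixed by the Galois group of a finite extension of `ℚ`:

* `hasFiniteField_of_mem` : every element of `laurentBaseChange ℚ̄ F₀` is fixed (coefficientwise) by
  all `σ` fixing a suitable finite extension `L / ℚ`;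
* `exists_finite_fixing_place` : the same for places (a place is the unique pole of a function);
* `exists_finite_fixing_divisor`, `exists_finite_fixing_pic0`;
* `exists_finite_fixing_JZero` : the statement for `JZero N`.
-/

set_option autoImplicit false
set_option linter.unusedSectionVars false

open AlgebraicCurve ModularCurve IntermediateField

namespace Fermat.Agent.Res

local notation "Qb" => AlgebraicClosure ℚ
local notation "GQ" => (AlgebraicClosure ℚ ≃ₐ[ℚ] AlgebraicClosure ℚ)

/-- The Laurent series `u` is fixed, coefficientwise, by the Galois group of a finite extension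
of `ℚ`. -/
def HasFiniteField (u : LaurentSeries Qb) : Prop :=
  ∃ L : IntermediateField ℚ Qb, FiniteDimensional ℚ L ∧
    ∀ σ : GQ, (∀ a ∈ L, σ a = a) → coeffMap (σ : Qb →+* Qb) u = u

namespace HasFiniteField

theorem algebraMap (a : Qb) : HasFiniteField (algebraMap Qb (LaurentSeries Qb) a) := by
  have ha : IsIntegral ℚ a := ((AlgebraicClosure.isAlgebraic ℚ).isAlgebraic a).isIntegral
  refine ⟨ℚ⟮a⟯, IntermediateField.adjoin.finiteDimensional ha, fun σ hσ => ?_⟩
  rw [coeffMap_algebraMap]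
  congr 1
  exact hσ a (IntermediateField.mem_adjoin_simple_self ℚ a)

theorem coeffEmb (x : LaurentSeries ℚ) : HasFiniteField (coeffEmb Qb x) :=
  ⟨⊥, inferInstance, fun σ _ => coeffMap_coeffEmb σ x⟩

theorem one : HasFiniteField (1 : LaurentSeries Qb) :=
  ⟨⊥, inferInstance, fun _ _ => map_one _⟩

theorem add {u v : LaurentSeries Qb} (hu : HasFiniteField u) (hv : HasFiniteField v) :
    HasFiniteField (u + v) := by
  obtain ⟨L₁, h₁, hL₁⟩ := hu
  obtain ⟨L₂, h₂, hL₂⟩ := hv
  refine ⟨L₁ ⊔ L₂, IntermediateField.finiteDimensional_sup L₁ L₂, fun σ hσ => ?_⟩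
  rw [map_add, hL₁ σ fun a ha => hσ a ((le_sup_left : L₁ ≤ L₁ ⊔ L₂) ha),
    hL₂ σ fun a ha => hσ a ((le_sup_right : L₂ ≤ L₁ ⊔ L₂) ha)]

theorem mul {u v : LaurentSeries Qb} (hu : HasFiniteField u) (hv : HasFiniteField v) :
    HasFiniteField (u * v) := by
  obtain ⟨L₁, h₁, hL₁⟩ := hu
  obtain ⟨L₂, h₂, hL₂⟩ := hv
  refine ⟨L₁ ⊔ L₂, IntermediateField.finiteDimensional_sup L₁ L₂, fun σ hσ => ?_⟩
  rw [map_mul, hL₁ σ fun a ha => hσ a ((le_sup_left : L₁ ≤ L₁ ⊔ L₂) ha),
    hL₂ σ fun a ha => hσ a ((le_sup_right : L₂ ≤ L₁ ⊔ L₂) ha)]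

theorem neg {u : LaurentSeries Qb} (hu : HasFiniteField u) : HasFiniteField (-u) := by
  obtain ⟨L, h, hL⟩ := hu
  exact ⟨L, h, fun σ hσ => by rw [map_neg, hL σ hσ]⟩

theorem inv {u : LaurentSeries Qb} (hu : HasFiniteField u) : HasFiniteField u⁻¹ := by
  obtain ⟨L, h, hL⟩ := hu
  exact ⟨L, h, fun σ hσ => by rw [map_inv₀, hL σ hσ]⟩

end HasFiniteField

variable (F₀ : IntermediateField ℚ (LaurentSeries ℚ))

/-- Every element of `laurentBaseChange ℚ̄ F₀` is fixed by the Galois group of a finite extension. -/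
theorem hasFiniteField_of_mem {u : LaurentSeries Qb} (hu : u ∈ laurentBaseChange Qb F₀) :
    HasFiniteField u := by
  rw [mem_laurentBaseChange_iff] at hu
  induction hu using Subfield.closure_induction with
  | mem y hy =>
      rcases hy with ⟨a, rfl⟩ | ⟨z, _, rfl⟩
      · exact HasFiniteField.algebraMap a
      · exact HasFiniteField.coeffEmb z
  | one => exact HasFiniteField.one
  | add x y _ _ hx hy => exact hx.add hy
  | neg x _ hx => exact hx.neg
  | inv x _ hx => exact hx.inv
  | mul x y _ _ hx hy => exact hx.mul hy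

/-- An element of the function field is fixed by `arithmeticGalois F₀ σ` for all `σ` fixing a
suitable finite extension. -/
theorem exists_finite_fixing_elem (u : laurentBaseChange Qb F₀) :
    ∃ L : IntermediateField ℚ Qb, FiniteDimensional ℚ L ∧
      ∀ σ : GQ, (∀ a ∈ L, σ a = a) → arithmeticGalois F₀ σ • u = u := by
  obtain ⟨L, hL, h⟩ := hasFiniteField_of_mem F₀ u.2
  exact ⟨L, hL, fun σ hσ => Subtype.ext (by rw [coe_arithmeticGalois_smul]; exact h σ hσ)⟩

variable (hF : Red.RiemannPkg Qb (laurentBaseChange Qb F₀))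

include hF in
/-- A place is fixed by the Galois group of a finite extension. -/
theorem exists_finite_fixing_place (P : Place Qb (laurentBaseChange Qb F₀)) :
    ∃ L : IntermediateField ℚ Qb, FiniteDimensional ℚ L ∧
      ∀ σ : GQ, (∀ a ∈ L, σ a = a) → arithmeticGalois F₀ σ • P = P := by
  classical
  obtain ⟨M₀, hM⟩ := Red.exists_poles_exactly hF {P} ∅ ⟨P, Finset.mem_singleton_self P⟩
  obtain ⟨h, -, hP, hQ, -⟩ := hM (max M₀ 1) (le_max_left _ _)
  obtain ⟨L, hL, hfix⟩ := exists_finite_fixing_elem F₀ h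
  refine ⟨L, hL, fun σ hσ => ?_⟩
  by_contra hne
  have h1 := SemilinearAut.ord_smul (arithmeticGalois F₀ σ) P h
  rw [hfix σ hσ, hP P (Finset.mem_singleton_self P)] at h1
  have h2 := hQ (arithmeticGalois F₀ σ • P) (by rwa [Finset.mem_singleton])
  rw [h1] at h2
  have h3 : (1 : ℤ) ≤ ((max M₀ 1 : ℕ) : ℤ) := by exact_mod_cast le_max_right M₀ 1
  omega

include hF in
/-- A divisor is fixed by the Galois group of a finite extension. -/
theorem exists_finite_fixing_divisor (D : Divisor Qb (laurentBaseChange Qb F₀)) :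
    ∃ L : IntermediateField ℚ Qb, FiniteDimensional ℚ L ∧
      ∀ σ : GQ, (∀ a ∈ L, σ a = a) → arithmeticGalois F₀ σ • D = D := by
  induction D using Finsupp.induction with
  | zero => exact ⟨⊥, inferInstance, fun σ _ => smul_zero _⟩
  | single_add P n D _ _ ih =>
      obtain ⟨L₁, h₁, hL₁⟩ := exists_finite_fixing_place F₀ hF P
      obtain ⟨L₂, h₂, hL₂⟩ := ih
      refine ⟨L₁ ⊔ L₂, IntermediateField.finiteDimensional_sup L₁ L₂, fun σ hσ => ?_⟩
      rw [smul_add, SemilinearAut.smul_single,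
        hL₁ σ fun a ha => hσ a ((le_sup_left : L₁ ≤ L₁ ⊔ L₂) ha),
        hL₂ σ fun a ha => hσ a ((le_sup_right : L₂ ≤ L₁ ⊔ L₂) ha)]

include hF in
/-- **Open stabilisers**: every class in `Pic⁰` is fixed by the Galois group of a finite
extension. -/
theorem exists_finite_fixing_pic0 (x : Pic0 Qb (laurentBaseChange Qb F₀)) :
    ∃ L : IntermediateField ℚ Qb, FiniteDimensional ℚ L ∧
      ∀ σ : GQ, (∀ a ∈ L, σ a = a) → σ • x = x := by
  obtain ⟨D, rfl⟩ := Pic0.mk_surjective x
  obtain ⟨L, hL, h⟩ := exists_finite_fixing_divisor F₀ hF (D : Divisor Qb (laurentBaseChange Qb F₀))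
  refine ⟨L, hL, fun σ hσ => ?_⟩
  rw [galois_smul_pic0_def, SemilinearAut.pic0_smul_mk]
  congr 1
  exact Subtype.ext (by rw [SemilinearAut.coe_degZeroSMulHom]; exact h σ hσ)

/-- **(R2)** Every element of `JZero N` is fixed by the Galois group of a finite extension of
`ℚ`. -/
theorem exists_finite_fixing_JZero (N : ℕ) [NeZero N] (x : JZero N) :
    ∃ L : IntermediateField ℚ Qb, FiniteDimensional ℚ L ∧
      ∀ σ : GQ, (∀ a ∈ L, σ a = a) → σ • x = x :=
  exists_finite_fixing_pic0 (modularFunctionFieldFull N) (Fermat.Agent.Val.riemannPkg_bar N) x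

end Fermat.Agent.Res
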