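import Fermat.Agent.S55.CycloUnram
import Fermat.Prelude.Def_EllipticCurve_FrobeniusTrace

/-!
# Program R, node (R4): the mod `p` cyclotomic character

`ExtCitation.cycloChar p : GQ →* (ZMod p)ˣ` is the Prelude's mod `p` cyclotomic character.

* `cycloChar_spec` : `σ ζ = ζ ^ (cycloChar p σ).val` for `ζ ^ p = 1`;
* `eq_of_valuation_sub_lt_one` : two `p`-th roots of unity congruent modulo a place over
  `ℓ ≠ p` are equal;
* `cycloChar_frobenius` : `cycloChar p φ = ℓ` for every Frobenius element `φ` at a place over a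
  prime `ℓ ≠ p` (Prelude `ValuationSubring.IsFrobeniusAt`);
* `cycloChar_eq_one_of_mem_inertia` is `Fermat.Agent.S55.cycloChar_eq_one_of_mem_inertia`;
* `cycloChar_eq_of_apply_eq`, `exists_finite_level` : the character factors through `ℚ(ζ_p)`;
* `cycloCharK k : GQ →* kˣ` for a field `k` of characteristic `p`, with the same properties
  (`cycloCharK_frobenius : (cycloCharK p k φ : k) = ℓ`).
-/

set_option autoImplicit false
set_option linter.style.haveILetI false
set_option linter.unusedSectionVars false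

open ExtCitation IsLocalRing
open Fermat.Agent.S54.FrobExists

namespace Fermat.Agent.Res

local notation "Qb" => AlgebraicClosure ℚ
local notation "GQ" => (AlgebraicClosure ℚ ≃ₐ[ℚ] AlgebraicClosure ℚ)

variable (p : ℕ) [hp : Fact p.Prime]

/-- The action of `σ` on `p`-th roots of unity. -/
theorem cycloChar_spec (σ : GQ) {ζ : Qb} (hζ : ζ ^ p = 1) :
    σ ζ = ζ ^ ((cycloChar p σ : (ZMod p)ˣ) : ZMod p).val := by
  rw [Fermat.Agent.S55.cycloChar_eq_chi]
  exact Fermat.Agent.S14.AlgGQ.chi_spec p σ hζ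

/-- If `σ` raises all `p`-th roots of unity to the `k`-th power then `cycloChar p σ = k`. -/
theorem natCast_eq_cycloChar_of_forall (σ : GQ) (k : ℕ)
    (h : ∀ ζ : Qb, ζ ^ p = 1 → σ ζ = ζ ^ k) :
    (k : ZMod p) = ((cycloChar p σ : (ZMod p)ˣ) : ZMod p) := by
  rw [Fermat.Agent.S55.cycloChar_eq_chi]
  exact Fermat.Agent.S14.AlgGQ.natCast_eq_cs_of_forall p σ k h

variable {p}

/-- A `p`-th root of unity `η ≠ 1` is not congruent to `1` modulo a place over `ℓ ≠ p`. -/
theorem not_valuation_sub_one_lt_one {ℓ : ℕ} (hℓ : ℓ.Prime) (hℓp : ℓ ≠ p)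
    (A : ValuationSubring Qb) (hA : A.LiesOverPrime ℓ) {η : Qb} (hηp : η ^ p = 1) (hη1 : η ≠ 1) :
    ¬ A.valuation (η - 1) < 1 := by
  intro hvη
  have hp' : p.Prime := hp.out
  have hprim : IsPrimitiveRoot η p := by
    have hord : orderOf η = p := by
      have hdvd := orderOf_dvd_of_pow_eq_one hηp
      rcases (Nat.dvd_prime hp').1 hdvd with h | h
      · exact absurd (orderOf_eq_one_iff.1 h) hη1
      · exact h
    rw [← hord]
    exact IsPrimitiveRoot.orderOf η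
  obtain ⟨z, hz, hpz⟩ := IsPrimitiveRoot.self_sub_one_pow_dvd_order (k := 1) hp'.one_lt hprim
  have hηint : IsIntegral ℤ η :=
    IsIntegral.of_pow hp'.pos (by rw [hηp]; exact isIntegral_one)
  have hzA : z ∈ A := by
    refine integral_mem_valuationSubring A ?_
    exact IsIntegral.of_mem_of_fg _ (hηint.fg_adjoin_singleton) z hz
  have hvp : A.valuation (p : Qb) < 1 := by
    rw [hpz, pow_one, map_mul]
    calc A.valuation z * A.valuation (η - 1) ≤ 1 * A.valuation (η - 1) :=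
          mul_le_mul_left ((A.valuation_le_one_iff z).2 hzA) _
      _ = A.valuation (η - 1) := one_mul _
      _ < 1 := hvη
  have hvℓ : A.valuation (ℓ : Qb) < 1 := (A.mem_nonunits_iff).mp hA
  have hcop : Nat.Coprime p ℓ := (Nat.coprime_primes hp' hℓ).2 (Ne.symm hℓp)
  have hbez : (1 : Qb) = (Nat.gcdA p ℓ : Qb) * (p : Qb) + (Nat.gcdB p ℓ : Qb) * (ℓ : Qb) := by
    have := Nat.gcd_eq_gcd_ab p ℓ
    rw [hcop] at this
    have h2 : ((1 : ℕ) : ℤ) = (p : ℤ) * Nat.gcdA p ℓ + (ℓ : ℤ) * Nat.gcdB p ℓ := this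
    have h3 := congrArg (Int.cast : ℤ → Qb) h2
    push_cast at h3
    rw [h3]; ring
  have hint' : ∀ n : ℤ, A.valuation (n : Qb) ≤ 1 := fun n =>
    (A.valuation_le_one_iff _).2 (intCast_mem_valuationSubring A n)
  have h1 : A.valuation (1 : Qb) < 1 := by
    rw [hbez]
    refine Valuation.map_add_lt _ ?_ ?_
    · rw [map_mul]
      calc _ ≤ 1 * A.valuation (p : Qb) := mul_le_mul_left (hint' _) _
        _ = _ := one_mul _
        _ < 1 := hvp
    · rw [map_mul]
      calc _ ≤ 1 * A.valuation (ℓ : Qb) := mul_le_mul_left (hint' _) _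
        _ = _ := one_mul _
        _ < 1 := hvℓ
  rw [map_one] at h1
  exact lt_irrefl _ h1

/-- `p`-th roots of unity stay distinct modulo a place over `ℓ ≠ p`. -/
theorem eq_of_valuation_sub_lt_one {ℓ : ℕ} (hℓ : ℓ.Prime) (hℓp : ℓ ≠ p)
    (A : ValuationSubring Qb) (hA : A.LiesOverPrime ℓ) {ζ₁ ζ₂ : Qb} (h₁ : ζ₁ ^ p = 1)
    (h₂ : ζ₂ ^ p = 1) (h : A.valuation (ζ₁ - ζ₂) < 1) : ζ₁ = ζ₂ := by
  by_contra hne
  have hp' : p.Prime := hp.out
  have h20 : ζ₂ ≠ 0 := by
    rintro rfl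
    rw [zero_pow hp'.ne_zero] at h₂
    exact zero_ne_one h₂
  have hint : ∀ x : Qb, x ^ p = 1 → x ∈ A := fun x hx =>
    integral_mem_valuationSubring A
      (IsIntegral.of_pow hp'.pos (by rw [hx]; exact isIntegral_one))
  have h2inv : ζ₂⁻¹ ^ p = 1 := by rw [inv_pow, h₂, inv_one]
  refine not_valuation_sub_one_lt_one hℓ hℓp A hA (η := ζ₁ * ζ₂⁻¹) ?_ ?_ ?_
  · rw [mul_pow, h₁, h2inv, one_mul]
  · intro h1
    apply hne
    have : ζ₁ * ζ₂⁻¹ * ζ₂ = 1 * ζ₂ := by rw [h1]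
    rwa [inv_mul_cancel_right₀ h20, one_mul] at this
  · have e : ζ₁ * ζ₂⁻¹ - 1 = (ζ₁ - ζ₂) * ζ₂⁻¹ := by
      rw [sub_mul, mul_inv_cancel₀ h20]
    rw [e, map_mul]
    calc A.valuation (ζ₁ - ζ₂) * A.valuation ζ₂⁻¹ ≤ A.valuation (ζ₁ - ζ₂) * 1 :=
          mul_le_mul_right ((A.valuation_le_one_iff _).2 (hint _ h2inv)) _
      _ = A.valuation (ζ₁ - ζ₂) := mul_one _
      _ < 1 := h

/-- Elementwise consequence of the Prelude's Frobenius condition. -/
theorem valuation_frobenius_sub_pow_lt_one {A : ValuationSubring Qb} {φ : GQ} {q : ℕ}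
    (hφ : A.IsFrobeniusAt φ q) {y : Qb} (hy : y ∈ A) : A.valuation (φ y - y ^ q) < 1 := by
  obtain ⟨hD, hres⟩ := hφ
  have h1 := hres (residue A ⟨y, hy⟩)
  rw [← IsLocalRing.ResidueField.residue_smul, ← map_pow, ← sub_eq_zero, ← map_sub,
    IsLocalRing.residue_eq_zero_iff, A.valuation_lt_one_iff] at h1
  exact h1

variable (p)

/-- **The cyclotomic character of a Frobenius element at `ℓ ≠ p` is `ℓ`.** -/
theorem cycloChar_frobenius {ℓ : ℕ} (hℓ : ℓ.Prime) (hℓp : ℓ ≠ p)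
    (A : ValuationSubring Qb) (hA : A.LiesOverPrime ℓ) {φ : GQ} (hφ : A.IsFrobeniusAt φ ℓ) :
    ((cycloChar p φ : (ZMod p)ˣ) : ZMod p) = (ℓ : ZMod p) := by
  have hp' : p.Prime := hp.out
  refine (natCast_eq_cycloChar_of_forall p φ ℓ fun ζ hζ => ?_).symm
  have hζA : ζ ∈ A := integral_mem_valuationSubring A
    (IsIntegral.of_pow hp'.pos (by rw [hζ]; exact isIntegral_one))
  refine eq_of_valuation_sub_lt_one hℓ hℓp A hA ?_ ?_
    (valuation_frobenius_sub_pow_lt_one hφ hζA)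
  · rw [← map_pow, hζ, map_one]
  · rw [← pow_mul, mul_comm, pow_mul, hζ, one_pow]

/-- The cyclotomic character only depends on the action on one primitive `p`-th root of unity. -/
theorem cycloChar_eq_of_apply_eq {ζ : Qb} (hζ : IsPrimitiveRoot ζ p) {σ τ : GQ}
    (h : σ ζ = τ ζ) : cycloChar p σ = cycloChar p τ := by
  have h1 : cycloChar p (τ⁻¹ * σ) = 1 := by
    rw [Fermat.Agent.S55.cycloChar_eq_one_iff]
    intro ξ hξ
    obtain ⟨i, -, rfl⟩ := hζ.eq_pow_of_pow_eq_one hξ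
    rw [map_pow]
    congr 1
    show τ⁻¹ (σ ζ) = ζ
    rw [h]
    exact τ.symm_apply_apply ζ
  rw [map_mul, map_inv, inv_mul_eq_one] at h1
  exact h1.symm

/-- **Finite level**: the cyclotomic character factors through the finite extension `ℚ(ζ_p)`. -/
theorem exists_finite_level :
    ∃ L : IntermediateField ℚ Qb, FiniteDimensional ℚ L ∧
      ∀ σ τ : GQ, (∀ x ∈ L, σ x = τ x) → cycloChar p σ = cycloChar p τ := by
  have hp' : p.Prime := hp.out
  haveI : NeZero p := ⟨hp'.ne_zero⟩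
  obtain ⟨ζ, hζ⟩ : ∃ ζ : Qb, IsPrimitiveRoot ζ p :=
    HasEnoughRootsOfUnity.exists_primitiveRoot Qb p
  have hint : IsIntegral ℚ ζ :=
    (IsIntegral.of_pow hp'.pos (by rw [hζ.pow_eq_one]; exact isIntegral_one) :
      IsIntegral ℤ ζ).tower_top
  refine ⟨IntermediateField.adjoin ℚ {ζ}, IntermediateField.adjoin.finiteDimensional hint,
    fun σ τ h => cycloChar_eq_of_apply_eq p hζ ?_⟩
  exact h ζ (IntermediateField.mem_adjoin_simple_self ℚ ζ)

section Field

variable (k : Type*) [Field k] [CharP k p]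

/-- The mod `p` cyclotomic character with values in a field of characteristic `p`. -/
noncomputable def cycloCharK : GQ →* kˣ :=
  (Units.map (ZMod.castHom (dvd_refl p) k : ZMod p →* k)).comp (cycloChar p)

theorem coe_cycloCharK (σ : GQ) :
    ((cycloCharK p k σ : kˣ) : k) =
      ZMod.castHom (dvd_refl p) k ((cycloChar p σ : (ZMod p)ˣ) : ZMod p) := rfl

/-- `cycloCharK φ = ℓ` for a Frobenius element at `ℓ ≠ p`. -/
theorem cycloCharK_frobenius {ℓ : ℕ} (hℓ : ℓ.Prime) (hℓp : ℓ ≠ p)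
    (A : ValuationSubring Qb) (hA : A.LiesOverPrime ℓ) {φ : GQ} (hφ : A.IsFrobeniusAt φ ℓ) :
    ((cycloCharK p k φ : kˣ) : k) = (ℓ : k) := by
  rw [coe_cycloCharK, cycloChar_frobenius p hℓ hℓp A hA hφ, map_natCast]

/-- `cycloCharK` is trivial on inertia groups at `ℓ ≠ p`. -/
theorem cycloCharK_eq_one_of_mem_inertia {ℓ : ℕ} (hℓ : ℓ.Prime) (hℓp : ℓ ≠ p)
    (A : ValuationSubring Qb) (hA : A.LiesOverPrime ℓ) {σ : GQ}
    (hσ : σ ∈ A.inertiaSubgroupIn ℚ) : cycloCharK p k σ = 1 := by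
  rw [cycloCharK, MonoidHom.comp_apply,
    Fermat.Agent.S55.cycloChar_eq_one_of_mem_inertia p hℓ hℓp A hA hσ, map_one]

/-- Finite level for `cycloCharK`. -/
theorem exists_finite_level_K :
    ∃ L : IntermediateField ℚ Qb, FiniteDimensional ℚ L ∧
      ∀ σ τ : GQ, (∀ x ∈ L, σ x = τ x) → cycloCharK p k σ = cycloCharK p k τ := by
  obtain ⟨L, hL, h⟩ := exists_finite_level p
  exact ⟨L, hL, fun σ τ hστ => by rw [cycloCharK, MonoidHom.comp_apply, MonoidHom.comp_apply,
    h σ τ hστ]⟩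

end Field

end Fermat.Agent.Res
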