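import Fermat.Agent.S22
import Fermat.Agent.S49.Forms
import Fermat.Agent.Jac.EigenHecke
import Fermat.Prelude.Def_ModularCurve_EigenformIdeal

/-!
# Program R, node (R5): the eigensystem of a normalized eigenform

`g` a normalized eigenform of level `N ≠ 0` and weight `2` which is an eigenvector of the Hecke
family: `heig : ∀ ℓ, heckeFam N ℓ g = qCoeff g ℓ • g` (`S49.heckeFam`: `T_ℓ` for `ℓ ∤ N`, `U_ℓ` for
`ℓ ∣ N`).  Using `S22.result` (the Hecke algebra is a finite `ℤ`-module):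

* `finite_adjoin_qCoeff` : `ℤ[a_ℓ : ℓ prime]` is a finitely generated `ℤ`-module;
* `isIntegral_qCoeff_prime` : every `a_ℓ` is an algebraic integer;
* `exists_eigenPackage` : for `φ : integralClosure ℤ ℂ →+* k`, `k` a field of characteristic `p`:
  the eigen-ideal `𝔪 = ker (T_ℓ ↦ φ a_ℓ)` is maximal with finite residue field, is an
  `IsEigenformIdeal N`, and contains `p`.
-/

set_option autoImplicit false
set_option linter.unusedSectionVars false
set_option linter.style.haveILetI false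

open CuspForm ModularFormClass CongruenceSubgroup ModularCurve Fermat.Agent.S49

namespace Fermat.Agent.Res.EigenSystem

noncomputable section

local notation "Zb" => integralClosure ℤ ℂ

variable {N : ℕ} [NeZero N] {g : CuspForm (Gamma0 N) 2}

theorem ne_zero_of_isNormalizedEigenform (hg : g.IsNormalizedEigenform) : g ≠ 0 := by
  rintro rfl
  have h1 := hg.qCoeff_one
  have h0 : qCoeff ⇑(0 : CuspForm (Gamma0 N) 2) 1 = 0 := by
    have := map_zero (qCoeffLin N 2 1)
    rwa [qCoeffLin_apply] at this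
  rw [h0] at h1
  exact zero_ne_one h1

/-- The eigenvalue functional `T ↦ a_1(T g)`. -/
def eigenvalueLin (g : CuspForm (Gamma0 N) 2) :
    Module.End ℂ (CuspForm (Gamma0 N) 2) →ₗ[ℤ] ℂ :=
  ((qCoeffLin N 2 1).comp (LinearMap.applyₗ g)).restrictScalars ℤ

theorem eigenvalueLin_apply (T : Module.End ℂ (CuspForm (Gamma0 N) 2)) :
    eigenvalueLin g T = qCoeff ⇑(T g) 1 := rfl

theorem eigenvalueLin_of_eq (hg : g.IsNormalizedEigenform)
    {T : Module.End ℂ (CuspForm (Gamma0 N) 2)} {x : ℂ} (h : T g = x • g) :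
    eigenvalueLin g T = x := by
  rw [eigenvalueLin_apply, h, qCoeff_smul', hg.qCoeff_one, mul_one]

theorem heckeFam_mem_heckeAlgebra (ℓ : Nat.Primes) :
    heckeFam N ℓ ∈ heckeAlgebra N 2 (∅ : Set ℕ) := by
  unfold heckeFam
  split_ifs with h
  · exact heckeULin_mem_heckeAlgebra ℓ.2 h (Set.notMem_empty _)
  · exact heckeTLin_mem_heckeAlgebra ℓ.2 h (Set.notMem_empty _)

/-- The subalgebra `ℤ[a_ℓ]` of `ℂ`. -/
def coeffAlg (g : CuspForm (Gamma0 N) 2) : Subalgebra ℤ ℂ :=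
  Algebra.adjoin ℤ (Set.range fun ℓ : Nat.Primes => qCoeff ⇑g ℓ)

theorem qCoeff_mem_coeffAlg (ℓ : Nat.Primes) : qCoeff ⇑g ℓ ∈ coeffAlg g :=
  Algebra.subset_adjoin ⟨ℓ, rfl⟩

/-- Every element of `ℤ[a_ℓ]` is the eigenvalue on `g` of an element of the Hecke algebra. -/
theorem exists_hecke_of_mem_coeffAlg
    (heig : ∀ ℓ : Nat.Primes, heckeFam N ℓ g = qCoeff ⇑g ℓ • g) {x : ℂ}
    (hx : x ∈ coeffAlg g) : ∃ T ∈ heckeAlgebra N 2 (∅ : Set ℕ), T g = x • g := by
  induction hx using Algebra.adjoin_induction with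
  | mem x hx =>
    obtain ⟨ℓ, rfl⟩ := hx
    exact ⟨heckeFam N ℓ, heckeFam_mem_heckeAlgebra ℓ, heig ℓ⟩
  | algebraMap r =>
    refine ⟨algebraMap ℤ _ r, Subalgebra.algebraMap_mem _ r, ?_⟩
    rw [Algebra.algebraMap_eq_smul_one, Algebra.algebraMap_eq_smul_one, LinearMap.smul_apply,
      Module.End.one_apply, smul_assoc, one_smul]
  | add x y _ _ hx hy =>
    obtain ⟨T, hT, hTg⟩ := hx
    obtain ⟨T', hT', hT'g⟩ := hy
    exact ⟨T + T', add_mem hT hT', by rw [LinearMap.add_apply, hTg, hT'g, add_smul]⟩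
  | mul x y _ _ hx hy =>
    obtain ⟨T, hT, hTg⟩ := hx
    obtain ⟨T', hT', hT'g⟩ := hy
    refine ⟨T * T', mul_mem hT hT', ?_⟩
    rw [Module.End.mul_apply, hT'g, map_smul, hTg, smul_smul, mul_comm]

/-- `ℤ[a_ℓ]` is contained in the image of the Hecke algebra under the eigenvalue functional. -/
theorem coeffAlg_le_map (hg : g.IsNormalizedEigenform)
    (heig : ∀ ℓ : Nat.Primes, heckeFam N ℓ g = qCoeff ⇑g ℓ • g) :
    Subalgebra.toSubmodule (coeffAlg g) ≤
      (Subalgebra.toSubmodule (heckeAlgebra N 2 (∅ : Set ℕ))).map (eigenvalueLin g) := by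
  intro x hx
  obtain ⟨T, hT, hTg⟩ := exists_hecke_of_mem_coeffAlg heig (show x ∈ coeffAlg g from hx)
  exact ⟨T, hT, eigenvalueLin_of_eq hg hTg⟩

/-- **(R5)(b)** `ℤ[a_ℓ]` is a finitely generated `ℤ`-module. -/
theorem fg_coeffAlg (hg : g.IsNormalizedEigenform)
    (heig : ∀ ℓ : Nat.Primes, heckeFam N ℓ g = qCoeff ⇑g ℓ • g) :
    (Subalgebra.toSubmodule (coeffAlg g)).FG := by
  haveI : Module.Finite ℤ (heckeAlgebra N 2 (∅ : Set ℕ)) := Fermat.Agent.S22.result N 2 ∅
  have hfg : (Subalgebra.toSubmodule (heckeAlgebra N 2 (∅ : Set ℕ))).FG :=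
    Module.Finite.iff_fg.mp (Fermat.Agent.S22.result N 2 ∅)
  have hfg' := hfg.map (eigenvalueLin g)
  haveI : IsNoetherian ℤ
      ((Subalgebra.toSubmodule (heckeAlgebra N 2 (∅ : Set ℕ))).map (eigenvalueLin g)) :=
    isNoetherian_of_fg_of_noetherian _ hfg'
  haveI := isNoetherian_of_le (coeffAlg_le_map hg heig)
  exact Module.Finite.iff_fg.mp inferInstance

theorem finite_adjoin_qCoeff (hg : g.IsNormalizedEigenform)
    (heig : ∀ ℓ : Nat.Primes, heckeFam N ℓ g = qCoeff ⇑g ℓ • g) :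
    Module.Finite ℤ (coeffAlg g) :=
  Module.Finite.iff_fg.mpr (fg_coeffAlg hg heig)

/-- Every element of `ℤ[a_ℓ]` is an algebraic integer. -/
theorem coeffAlg_le_integralClosure (hg : g.IsNormalizedEigenform)
    (heig : ∀ ℓ : Nat.Primes, heckeFam N ℓ g = qCoeff ⇑g ℓ • g) :
    coeffAlg g ≤ integralClosure ℤ ℂ :=
  fun x hx => IsIntegral.of_mem_of_fg (coeffAlg g) (fg_coeffAlg hg heig) x hx

/-- **(R5)(a), integrality**: the Hecke eigenvalues are algebraic integers. -/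
theorem isIntegral_qCoeff_prime (hg : g.IsNormalizedEigenform)
    (heig : ∀ ℓ : Nat.Primes, heckeFam N ℓ g = qCoeff ⇑g ℓ • g) (ℓ : Nat.Primes) :
    IsIntegral ℤ (qCoeff ⇑g ℓ) :=
  coeffAlg_le_integralClosure hg heig (qCoeff_mem_coeffAlg ℓ)

section Package

variable (hg : g.IsNormalizedEigenform)
  (heig : ∀ ℓ : Nat.Primes, heckeFam N ℓ g = qCoeff ⇑g ℓ • g)

/-- the integral lifts of the eigenvalues -/
def coeffZb : Nat.Primes → Zb := fun ℓ => ⟨qCoeff ⇑g ℓ, isIntegral_qCoeff_prime hg heig ℓ⟩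

theorem coe_coeffZb (ℓ : Nat.Primes) : ((coeffZb hg heig ℓ : Zb) : ℂ) = qCoeff ⇑g ℓ := rfl

variable {k : Type} [Field k] (φ : Zb →+* k)

/-- the restriction of `φ` to `ℤ[a_ℓ]` -/
def coeffHom : coeffAlg g →+* k :=
  φ.comp (Subalgebra.inclusion (coeffAlg_le_integralClosure hg heig)).toRingHom

theorem coeffHom_apply (x : coeffAlg g) :
    coeffHom hg heig φ x = φ ⟨x.1, coeffAlg_le_integralClosure hg heig x.2⟩ := rfl

/-- the generators `a_ℓ` as elements of `ℤ[a_ℓ]` -/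
def coeffGen (g : CuspForm (Gamma0 N) 2) : Nat.Primes → coeffAlg g :=
  fun ℓ => ⟨qCoeff ⇑g ℓ, qCoeff_mem_coeffAlg ℓ⟩

theorem coeffHom_coeffGen (ℓ : Nat.Primes) :
    coeffHom hg heig φ (coeffGen g ℓ) = φ (coeffZb hg heig ℓ) := rfl

theorem aeval_eq_coeffHom (t : HeckeAlg) :
    MvPolynomial.aeval (fun ℓ => φ (coeffZb hg heig ℓ)) t =
      coeffHom hg heig φ (MvPolynomial.aeval (coeffGen g) t) := by
  have := MvPolynomial.comp_aeval_apply (f := coeffGen g) (coeffHom hg heig φ).toIntAlgHom t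
  exact this.symm

variable {p : ℕ} [CharP k p]

/-- The image of `ℤ[a_ℓ]` in `k` is finite. -/
theorem finite_range_coeffHom (hp : p.Prime) : Finite (coeffHom hg heig φ).range := by
  haveI := finite_adjoin_qCoeff hg heig
  have hsurj : Function.Surjective (coeffHom hg heig φ).rangeRestrict :=
    (coeffHom hg heig φ).rangeRestrict_surjective
  haveI : Module.Finite ℤ (coeffHom hg heig φ).range :=
    Module.Finite.of_surjective (coeffHom hg heig φ).rangeRestrict.toIntAlgHom.toLinearMap hsurj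
  apply Module.finite_of_fg_torsion
  intro x
  refine ⟨⟨(p : ℤ), mem_nonZeroDivisors_of_ne_zero (by exact_mod_cast hp.ne_zero)⟩, ?_⟩
  apply Subtype.ext
  show ((p : ℤ) • x : (coeffHom hg heig φ).range).1 = 0
  rw [zsmul_eq_mul]
  push_cast
  rw [CharP.cast_eq_zero k p, zero_mul]

include hg heig in
/-- **(R5)(c)** the eigen-package. -/
theorem exists_eigenPackage (hp : p.Prime) :
    ∃ a : Nat.Primes → Zb, (∀ ℓ, (a ℓ : ℂ) = qCoeff ⇑g ℓ) ∧
      (eigenIdeal fun ℓ => φ (a ℓ)).IsMaximal ∧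
      Finite (HeckeAlg ⧸ eigenIdeal fun ℓ => φ (a ℓ)) ∧
      IsEigenformIdeal N (eigenIdeal fun ℓ => φ (a ℓ)) ∧
      ((p : ℕ) : HeckeAlg) ∈ eigenIdeal fun ℓ => φ (a ℓ) := by
  classical
  set c : Nat.Primes → k := fun ℓ => φ (coeffZb hg heig ℓ) with hc
  set 𝔪 : Ideal HeckeAlg := eigenIdeal c with h𝔪
  haveI hfin := finite_range_coeffHom hg heig φ hp
  -- the quotient embeds into the finite ring `range (coeffHom)`
  have hmem : ∀ t : HeckeAlg, MvPolynomial.aeval c t ∈ (coeffHom hg heig φ).range := fun t =>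
    ⟨_, (aeval_eq_coeffHom hg heig φ t).symm⟩
  let f : HeckeAlg ⧸ 𝔪 → (coeffHom hg heig φ).range := fun q =>
    ⟨Ideal.Quotient.lift 𝔪 (MvPolynomial.aeval (R := ℤ) c).toRingHom
        (fun t ht => (mem_eigenIdeal_iff c t).mp ht) q, by
      obtain ⟨t, rfl⟩ := Ideal.Quotient.mk_surjective q
      rw [Ideal.Quotient.lift_mk]
      exact hmem t⟩
  have hf : Function.Injective f := by
    intro q₁ q₂ h
    obtain ⟨t₁, rfl⟩ := Ideal.Quotient.mk_surjective q₁
    obtain ⟨t₂, rfl⟩ := Ideal.Quotient.mk_surjective q₂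
    have h' := congrArg Subtype.val h
    simp only [f, Ideal.Quotient.lift_mk] at h'
    rw [Ideal.Quotient.eq, h𝔪, mem_eigenIdeal_iff, map_sub]
    exact sub_eq_zero.mpr h'
  haveI hquotfin : Finite (HeckeAlg ⧸ 𝔪) := Finite.of_injective f hf
  haveI hprime : 𝔪.IsPrime := by
    rw [h𝔪, eigenIdeal]
    exact RingHom.ker_isPrime _
  have hmax : 𝔪.IsMaximal :=
    Ideal.Quotient.maximal_of_isField 𝔪 (Finite.isField_of_domain (HeckeAlg ⧸ 𝔪))
  refine ⟨coeffZb hg heig, coe_coeffZb hg heig, hmax, hquotfin, ?_, ?_⟩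
  · -- `IsEigenformIdeal`
    letI : Field (coeffHom hg heig φ).range :=
      (Finite.isField_of_domain (coeffHom hg heig φ).range).toField
    have h𝒪 : ∀ ℓ : Nat.Primes, qCoeff ⇑g ℓ ∈ (coeffAlg g).toSubring := fun ℓ =>
      Subalgebra.mem_toSubring.mpr (qCoeff_mem_coeffAlg ℓ)
    let φ' : (coeffAlg g).toSubring →+* (coeffHom hg heig φ).range :=
      { toFun := fun x => (coeffHom hg heig φ).rangeRestrict ⟨x.1, Subalgebra.mem_toSubring.mp x.2⟩
        map_one' := map_one (coeffHom hg heig φ).rangeRestrict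
        map_mul' := fun x y => map_mul (coeffHom hg heig φ).rangeRestrict
          ⟨x.1, Subalgebra.mem_toSubring.mp x.2⟩ ⟨y.1, Subalgebra.mem_toSubring.mp y.2⟩
        map_zero' := map_zero (coeffHom hg heig φ).rangeRestrict
        map_add' := fun x y => map_add (coeffHom hg heig φ).rangeRestrict
          ⟨x.1, Subalgebra.mem_toSubring.mp x.2⟩ ⟨y.1, Subalgebra.mem_toSubring.mp y.2⟩ }
    refine ⟨g, hg, (coeffHom hg heig φ).range, inferInstance, hfin, (coeffAlg g).toSubring, h𝒪, φ',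
      ?_⟩
    ext t
    rw [mem_eigenIdeal_iff, mem_eigenIdeal_iff]
    have key : ((MvPolynomial.aeval (fun ℓ : Nat.Primes => φ' ⟨qCoeff ⇑g ℓ, h𝒪 ℓ⟩) t :
        (coeffHom hg heig φ).range) : k) = MvPolynomial.aeval c t := by
      have := MvPolynomial.comp_aeval_apply (f := fun ℓ : Nat.Primes => φ' ⟨qCoeff ⇑g ℓ, h𝒪 ℓ⟩)
        (coeffHom hg heig φ).range.subtype.toIntAlgHom t
      exact this
    rw [← key]
    constructor
    · intro h
      exact Subtype.ext h
    · intro h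
      exact congrArg Subtype.val h
  · rw [mem_eigenIdeal_iff, map_natCast]
    exact CharP.cast_eq_zero k p

end Package

section Unconditional

/-! ### Unconditional forms (`heig` is `Jac.heckeFam_eq_smul`, helper15) -/

variable (hg : g.IsNormalizedEigenform)

include hg in
/-- `ℤ[a_ℓ : ℓ prime]` is a finitely generated `ℤ`-module. -/
theorem finite_coeffAlg : Module.Finite ℤ (coeffAlg g) :=
  finite_adjoin_qCoeff hg (Fermat.Agent.Jac.heckeFam_eq_smul hg)

include hg in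
/-- The Hecke eigenvalues `a_ℓ` of a normalized eigenform are algebraic integers. -/
theorem isIntegral_qCoeff (ℓ : Nat.Primes) : IsIntegral ℤ (qCoeff ⇑g ℓ) :=
  isIntegral_qCoeff_prime hg (Fermat.Agent.Jac.heckeFam_eq_smul hg) ℓ

include hg in
/-- **(R5)(c), unconditional.** -/
theorem exists_eigenPackage_of_isNormalizedEigenform {k : Type} [Field k] (φ : Zb →+* k)
    {p : ℕ} [CharP k p] (hp : p.Prime) :
    ∃ a : Nat.Primes → Zb, (∀ ℓ, (a ℓ : ℂ) = qCoeff ⇑g ℓ) ∧
      (eigenIdeal fun ℓ => φ (a ℓ)).IsMaximal ∧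
      Finite (HeckeAlg ⧸ eigenIdeal fun ℓ => φ (a ℓ)) ∧
      IsEigenformIdeal N (eigenIdeal fun ℓ => φ (a ℓ)) ∧
      ((p : ℕ) : HeckeAlg) ∈ eigenIdeal fun ℓ => φ (a ℓ) :=
  exists_eigenPackage hg (Fermat.Agent.Jac.heckeFam_eq_smul hg) φ hp

end Unconditional

end

end Fermat.Agent.Res.EigenSystem
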