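import Mathlib
import Fermat.Prelude.Def_GaloisRep_Residual
import Fermat.Agent.S13.DFinal

/-!
# Program R, node (R7), Frey side: the mod `n` Galois representation of a Weierstrass curve over `ℚ`
factors through a finite level

If `E[n](ℚ̄)` is finite then `galoisRepModuleEnd ℚ W n` is trivial on the fixer of the finite
extension of `ℚ` generated by the coordinates of the `n`-torsion points.  For the Frey curve and
`n = p` finiteness is `S13.dOut`.
-/

set_option autoImplicit false

namespace Fermat.Agent.Res.FreyLevel

open WeierstrassCurve WeierstrassCurve.Affine WeierstrassCurve.Affine.Point IntermediateField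
open scoped WeierstrassCurve.Affine

/-- The set of affine coordinates of a point. -/
def coordSet {F : Type*} [Field F] {W : Affine F} : W.Point → Set F
  | .zero => ∅
  | .some (x := x) (y := y) _ => {x, y}

theorem finite_coordSet {F : Type*} [Field F] {W : Affine F} (P : W.Point) :
    (coordSet P).Finite := by
  rcases P with _ | ⟨x, y, h⟩
  · exact Set.finite_empty
  · exact (Set.finite_singleton y).insert x

/-- A Galois automorphism fixing the coordinates of a point fixes the point. -/
theorem smul_eq_self_of_fixes_coordSet {S : Type*} {K : Type*} [Field S] [Field K]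
    [DecidableEq K] [Algebra S K] {W : Affine S} (σ : K ≃ₐ[S] K) (P : (W⁄K).Point)
    (h : ∀ z ∈ coordSet P, σ z = z) : σ • P = P := by
  rcases P with _ | ⟨x, y, hxy⟩
  · exact smul_zero σ
  · have hx : σ x = x := h x (by simp [coordSet])
    have hy : σ y = y := h y (by simp [coordSet])
    rw [algEquiv_smul_def, Point.map_some]
    congr 1

/-- If the `n`-torsion over `ℚ̄` is finite, the mod `n` representation factors through a finite
level (for any decidable-equality instance on `ℚ̄`). -/
theorem galoisFactorsThroughFiniteLevel_of_finite [DecidableEq (AlgebraicClosure ℚ)]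
    (W : WeierstrassCurve ℚ) (n : ℕ)
    [hfin : Finite (Submodule.torsionBy ℤ (W⁄(AlgebraicClosure ℚ)).Point n)] :
    GaloisFactorsThroughFiniteLevel
      (galoisRepModuleEnd (S := ℚ) (K := AlgebraicClosure ℚ) W n) := by
  let T : Set (AlgebraicClosure ℚ) :=
    ⋃ P : Submodule.torsionBy ℤ (W⁄(AlgebraicClosure ℚ)).Point n,
      coordSet (P : (W⁄(AlgebraicClosure ℚ)).Point)
  have hT : T.Finite := Set.finite_iUnion fun P => finite_coordSet _
  have : Finite T := hT
  refine ⟨adjoin ℚ T, ?_, ?_⟩
  · apply IntermediateField.finiteDimensional_adjoin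
    intro z _
    exact ((AlgebraicClosure.isAlgebraic ℚ).isAlgebraic z).isIntegral
  · intro σ hσ
    refine LinearMap.ext fun P => Subtype.ext ?_
    change σ • (P : (W⁄(AlgebraicClosure ℚ)).Point) = P
    apply smul_eq_self_of_fixes_coordSet
    intro z hz
    exact hσ z (subset_adjoin ℚ T (Set.mem_iUnion.mpr ⟨P, hz⟩))

/-- The mod `p` representation of the Frey curve factors through a finite level. -/
theorem frey_galoisFactorsThroughFiniteLevel [inst : DecidableEq (AlgebraicClosure ℚ)]
    (P : FreyPackage) :
    GaloisFactorsThroughFiniteLevel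
      (galoisRepModuleEnd (S := ℚ) (K := AlgebraicClosure ℚ) P.freyCurve P.p) := by
  obtain rfl : inst = instDecEqAlgebraicClosureRat := Subsingleton.elim _ _
  have : Finite (Submodule.torsionBy ℤ (P.freyCurve⁄(AlgebraicClosure ℚ)).Point P.p) :=
    (Fermat.Agent.S13.dOut P).2.1
  exact galoisFactorsThroughFiniteLevel_of_finite P.freyCurve P.p

end Fermat.Agent.Res.FreyLevel
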