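import Fermat.Agent.Res.S29Assembly
import Fermat.Agent.Res.EigenSystem
import Fermat.Agent.Jac.QuadAlg

/-!
# Program R, node (R6): discharging the inputs (R5) and (R3) of `s29_of_inputs`

* `eigenPackage_holds N : EigenPackage N` for `N ≠ 0` (from `Res/EigenSystem.lean`).
* `quadAlgStatement_holds κ : QuadAlgStatement κ` for every finite field `κ` (from helper3's
  `Jac/QuadAlg.lean`).
* `s29_of_inputs'` : `s29_of_inputs` with these two hypotheses removed.
-/

set_option autoImplicit false
set_option linter.style.haveILetI false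
set_option linter.unusedSectionVars false

open Polynomial ModularCurve

noncomputable section

namespace Fermat.Agent.Res

local notation "Qb" => AlgebraicClosure ℚ
local notation "GQ" => (AlgebraicClosure ℚ ≃ₐ[ℚ] AlgebraicClosure ℚ)
local notation "Zb" => integralClosure ℤ ℂ

/-- **(R5)** holds at every level `N ≠ 0`. -/
theorem eigenPackage_holds (N : ℕ) [NeZero N] : EigenPackage N := by
  intro g hg p hp k _ _ φ
  exact EigenSystem.exists_eigenPackage_of_isNormalizedEigenform hg φ hp

/-- **(R3)** holds for every finite field. -/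
theorem quadAlgStatement_holds (κ : Type) [Field κ] [Finite κ] : QuadAlgStatement κ := by
  intro W _ _ _ _ r d t h
  refine Fermat.Agent.Jac.QA.exists_rep_two r t d ?_
  intro g
  apply LinearMap.ext
  intro w
  have h1 := h g w
  simp only [Module.End.mul_apply, LinearMap.sub_apply, LinearMap.smul_apply,
    Module.End.one_apply]
  have h2 : r g (r g w) = t g • r g w - ((d g : κˣ) : κ) • w := by
    rw [eq_sub_iff_add_eq, ← sub_eq_zero, ← h1]
    abel
  exact h2

/-- **(R6): S29 at a level `N ≠ 0`**, remaining inputs: (HJ7), (H37), (HJ8), (R2), Chebotarev. -/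
theorem s29_of_inputs' {N : ℕ} [NeZero N]
    (hsmul : letI := heckeModuleBar N; SMulCommClass GQ HeckeAlg (JZero N))
    (hS37 : ∀ p : ℕ, letI := heckeModuleBar N;
      ∀ (_ : SMulCommClass GQ HeckeAlg (JZero N)),
        SpecializationExists (K := ℚ) (L := Qb) N p (JZero N))
    (hsupp : ∀ p : ℕ, p.Prime → letI := heckeModuleBar N; EigenformSupportAt N p (JZero N))
    (hstab : ∀ x : JZero N, ∃ L : IntermediateField ℚ Qb, FiniteDimensional ℚ L ∧
      ∀ σ : GQ, (∀ a ∈ L, σ a = a) → σ • x = x)
    (hcheb : Fermat.Agent.Cheb.ChebExact)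
    {g : CuspForm (CongruenceSubgroup.Gamma0 N) 2} (hg : g.IsNormalizedEigenform)
    {p : ℕ} (hp : p.Prime) {k : Type} [Field k] [CharP k p] (φ : Zb →+* k) :
    ∃ ρ : ResidualGaloisRep k, ρ.IsAttachedTo g φ ∧
      ∀ ℓ : ℕ, ℓ.Prime → ¬ ℓ ∣ N * p → ρ.IsUnramifiedAt ℓ :=
  s29_of_inputs hsmul hS37 hsupp hstab (eigenPackage_holds N)
    (fun κ _ _ => quadAlgStatement_holds κ) hcheb hg hp φ

end Fermat.Agent.Res

end
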