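import Fermat.Agent.Res.S29Plug
import Fermat.Agent.Res.S29Inputs

/-!
# Program R: S29 from the statement of S37 and `EigenformSupportAt`

`s29_of_s37_of_support` : the full statement of S29 (all levels `N`, including `N = 0`) from
* (H37) the statement of S37 (all `N ≠ 0`, all `p`),
* (HJ8) `EigenformSupportAt N p (JZero N)` (all `N ≠ 0`, all primes `p`).
Everything else ((HJ7), (R1)–(R5), Chebotarev) is plugged in.
-/

set_option autoImplicit false
set_option linter.style.haveILetI false
set_option linter.unusedSectionVars false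

open Polynomial ModularCurve

noncomputable section

namespace Fermat.Agent.Res

local notation "Qb" => AlgebraicClosure ℚ
local notation "GQ" => (AlgebraicClosure ℚ ≃ₐ[ℚ] AlgebraicClosure ℚ)
local notation "Zb" => integralClosure ℤ ℂ

/-- **S29 from S37 and `EigenformSupportAt`.** -/
theorem s29_of_s37_of_support
    (hS37 : ∀ (N p : ℕ) [NeZero N] (_ : HeckeOperatorsCommuteBar N),
      letI := heckeModuleBar N;
      ∀ (_ : SMulCommClass GQ HeckeAlg (JZero N)),
        SpecializationExists (K := ℚ) (L := Qb) N p (JZero N))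
    (hsupp : ∀ (N p : ℕ) [NeZero N], p.Prime →
      letI := heckeModuleBar N; EigenformSupportAt N p (JZero N))
    {N : ℕ} {g : CuspForm (CongruenceSubgroup.Gamma0 N) 2} (hg : g.IsNormalizedEigenform)
    {p : ℕ} (hp : p.Prime) {k : Type} [Field k] [CharP k p] (φ : Zb →+* k) :
    ∃ ρ : ResidualGaloisRep k, ρ.IsAttachedTo g φ ∧
      ∀ ℓ : ℕ, ℓ.Prime → ¬ ℓ ∣ N * p → ρ.IsUnramifiedAt ℓ := by
  by_cases hN : N = 0
  · subst hN
    exact s29_level_zero φ
  · haveI : NeZero N := ⟨hN⟩
    exact s29_of_support
      (fun p => hS37 N p (Fermat.Agent.Jac.heckeOperatorsCommuteBar N))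
      (fun p hp => hsupp N p hp) (eigenPackage_holds N) hg hp φ

end Fermat.Agent.Res

end
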