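import Fermat.Agent.Res.S29Generic
import Fermat.Prelude.Def_ModularCurve_EigenformIdeal
import Fermat.Prelude.Def_ModularCurve_HeckeModule
import Fermat.Prelude.Def_GaloisRep_Residual

/-!
# Program R, node (R6): the S29 assembly, hypothesis form

`s29_of_inputs` : the statement of S29 at a level `N ≠ 0` from
* (HJ7) the instance `SMulCommClass G_ℚ HeckeAlg (JZero N)`,
* (H37) the statement of S37 (already applied to `HeckeOperatorsCommuteBar N`),
* (HJ8) `EigenformSupportAt N p (JZero N)`,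
* (R2) open stabilisers on `JZero N`,
* (R5) `EigenPackage N` (integrality of the `a_ℓ`, finiteness of the residue field of the eigen
  ideal, `IsEigenformIdeal`),
* (R3) the quadratic-algebra lemma and Chebotarev (`ChebExact`).
`s29_level_zero` : the (vacuous) case `N = 0`.
-/

set_option autoImplicit false
set_option linter.style.haveILetI false
set_option linter.unusedSectionVars false

open Polynomial ModularCurve

noncomputable section

namespace Fermat.Agent.Res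

local notation "Qb" => AlgebraicClosure ℚ
local notation "GQ" => (AlgebraicClosure ℚ ≃ₐ[ℚ] AlgebraicClosure ℚ)
local notation "Zb" => integralClosure ℤ ℂ

/-- **(R5)**: the eigensystem package of a normalised eigenform of level `N`. -/
def EigenPackage (N : ℕ) : Prop :=
  ∀ {g : CuspForm (CongruenceSubgroup.Gamma0 N) 2} (_ : g.IsNormalizedEigenform) {p : ℕ}
    (_ : p.Prime) {k : Type} [Field k] [CharP k p] (φ : Zb →+* k),
    ∃ a : Nat.Primes → Zb, (∀ ℓ : Nat.Primes, (a ℓ : ℂ) = ModularFormClass.qCoeff g ℓ) ∧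
      (eigenIdeal fun ℓ => φ (a ℓ)).IsMaximal ∧
      Finite (HeckeAlg ⧸ eigenIdeal fun ℓ => φ (a ℓ)) ∧
      IsEigenformIdeal N (eigenIdeal fun ℓ => φ (a ℓ)) ∧
      ((p : ℕ) : HeckeAlg) ∈ eigenIdeal fun ℓ => φ (a ℓ)

/-- The case `N = 0` of S29: both clauses are vacuous or trivial for the trivial representation. -/
theorem s29_level_zero {g : CuspForm (CongruenceSubgroup.Gamma0 0) 2} {p : ℕ}
    {k : Type} [Field k] (φ : Zb →+* k) :
    ∃ ρ : ResidualGaloisRep k, ρ.IsAttachedTo g φ ∧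
      ∀ ℓ : ℕ, ℓ.Prime → ¬ ℓ ∣ 0 * p → ρ.IsUnramifiedAt ℓ := by
  refine ⟨{ V := Fin 2 → k
            finrank_eq := by simp
            ρ := 1
            factorsThroughFiniteLevel := ⟨⊥, inferInstance, fun σ _ => rfl⟩ }, ?_, ?_⟩
  · intro ℓ _ hℓ0
    exact absurd (dvd_zero ℓ) hℓ0
  · intro ℓ _ _ A _ σ _
    rfl

/-- **(R6): S29 at a level `N ≠ 0`, hypothesis form.** -/
theorem s29_of_inputs {N : ℕ} [NeZero N]
    (hsmul : letI := heckeModuleBar N; SMulCommClass GQ HeckeAlg (JZero N))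
    (hS37 : ∀ p : ℕ, letI := heckeModuleBar N;
      ∀ (_ : SMulCommClass GQ HeckeAlg (JZero N)),
        SpecializationExists (K := ℚ) (L := Qb) N p (JZero N))
    (hsupp : ∀ p : ℕ, p.Prime → letI := heckeModuleBar N; EigenformSupportAt N p (JZero N))
    (hstab : ∀ x : JZero N, ∃ L : IntermediateField ℚ Qb, FiniteDimensional ℚ L ∧
      ∀ σ : GQ, (∀ a ∈ L, σ a = a) → σ • x = x)
    (heig : EigenPackage N)
    (hQA : ∀ (κ : Type) [Field κ] [Finite κ], QuadAlgStatement κ)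
    (hcheb : Fermat.Agent.Cheb.ChebExact)
    {g : CuspForm (CongruenceSubgroup.Gamma0 N) 2} (hg : g.IsNormalizedEigenform)
    {p : ℕ} (hp : p.Prime) {k : Type} [Field k] [CharP k p] (φ : Zb →+* k) :
    ∃ ρ : ResidualGaloisRep k, ρ.IsAttachedTo g φ ∧
      ∀ ℓ : ℕ, ℓ.Prime → ¬ ℓ ∣ N * p → ρ.IsUnramifiedAt ℓ := by
  letI := heckeModuleBar N
  haveI := hsmul
  haveI : Fact p.Prime := ⟨hp⟩
  obtain ⟨a, ha, hmax, hfin, hEig, hpm⟩ := heig hg hp φ
  obtain ⟨ρ, h1, h2⟩ := exists_residualRep_of_eigenIdeal (N := N) (p := p) (JZero N)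
    (NeZero.ne N) (fun ℓ => φ (a ℓ)) hmax hfin hpm hQA hcheb (hS37 p hsmul)
    (hsupp p hp _ hEig hpm) hstab
  refine ⟨ρ, ?_, h2⟩
  intro ℓ hℓ hℓN hℓk A hA σ hσ
  have hℓp : ℓ ≠ p := by
    rintro rfl
    exact hℓk (CharP.cast_eq_zero k ℓ)
  exact ⟨a ⟨ℓ, hℓ⟩, ha ⟨ℓ, hℓ⟩, h1 ℓ hℓ hℓN hℓp A hA σ hσ⟩

end Fermat.Agent.Res

end
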