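import Mathlib
import Fermat.Prelude.Def_GaloisRep_Residual
import Fermat.Agent.Res.CycloModP
import Fermat.Agent.Cheb.DeuringExact

/-!
# Program R, node (R6), layer A: the abstract core of the S29 assembly

`κ` a finite field of characteristic `p`, `T` a `κ`-module with a `κ`-linear action `R` of
`G_ℚ`, `x ≠ 0` in `T` with open stabiliser, such that inertia at `ℓ ∤ Np` acts trivially on `T`
and every Frobenius at `ℓ ∤ Np` satisfies `Frob² - c_ℓ Frob + ℓ = 0` on `T`.  Then (Chebotarev +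
cyclotomic character + the quadratic-algebra lemma (R3), taken in hypothesis form
`QuadAlgStatement κ`) there is a `ResidualGaloisRep k` (for any `ι : κ →+* k`), unramified
outside `Np`, with `charpoly (ρ Frob_ℓ) = X² - ι(c_ℓ) X + ℓ` for every Frobenius at `ℓ ∤ Np`.
-/

set_option autoImplicit false
set_option linter.style.haveILetI false
set_option linter.unusedSectionVars false

open Polynomial

noncomputable section

namespace Fermat.Agent.Res

local notation "Qb" => AlgebraicClosure ℚ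
local notation "GQ" => (AlgebraicClosure ℚ ≃ₐ[ℚ] AlgebraicClosure ℚ)

/-- The quadratic-algebra lemma (R3), matrix form, as a statement about `G_ℚ`-modules over `κ`. -/
def QuadAlgStatement (κ : Type) [Field κ] : Prop :=
  ∀ (W : Type) [AddCommGroup W] [Module κ W] [Module.Finite κ W] [Nontrivial W]
    (r : GQ →* Module.End κ W) (d : GQ →* κˣ) (t : GQ → κ),
    (∀ g w, r g (r g w) - t g • r g w + ((d g : κˣ) : κ) • w = 0) →
    ∃ ρ2 : GQ →* Matrix (Fin 2) (Fin 2) κ,
      (∀ g, (ρ2 g).trace = t g ∧ (ρ2 g).det = ((d g : κˣ) : κ)) ∧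
      ∀ g, r g = 1 → d g = 1 → ρ2 g = 1

section Orbit

variable {κ : Type} [Field κ] {T : Type} [AddCommGroup T] [Module κ T]
variable (R : GQ →* Module.End κ T)

/-- The `κ`-span of the `G_ℚ`-orbit of `x`. -/
def orbitSpan (x : T) : Submodule κ T := Submodule.span κ (Set.range fun σ : GQ => R σ x)

theorem self_mem_orbitSpan (x : T) : x ∈ orbitSpan R x :=
  Submodule.subset_span ⟨1, by simp⟩

theorem map_mem_orbitSpan (x : T) (τ : GQ) : ∀ y ∈ orbitSpan R x, R τ y ∈ orbitSpan R x := by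
  intro y hy
  induction hy using Submodule.span_induction with
  | mem y hy =>
    obtain ⟨σ, rfl⟩ := hy
    exact Submodule.subset_span ⟨τ * σ, by simp [map_mul]⟩
  | zero => simp
  | add y z _ _ hy hz => rw [map_add]; exact add_mem hy hz
  | smul a y _ hy => rw [map_smul]; exact Submodule.smul_mem _ a hy

/-- The action of `G_ℚ` on the span of the orbit. -/
def orbitRep (x : T) : GQ →* Module.End κ (orbitSpan R x) where
  toFun σ := (R σ).restrict (map_mem_orbitSpan R x σ)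
  map_one' := by
    ext y
    simp
  map_mul' σ τ := by
    ext y
    simp [map_mul]

@[simp] theorem coe_orbitRep_apply (x : T) (σ : GQ) (y : orbitSpan R x) :
    ((orbitRep R x σ y : orbitSpan R x) : T) = R σ (y : T) := rfl

variable {R}

/-- If `σ` and `τ` agree on a field of definition of `x` they move `x` in the same way. -/
theorem apply_eq_of_agree {x : T} {L : IntermediateField ℚ Qb}
    (hL : ∀ σ : GQ, (∀ a ∈ L, σ a = a) → R σ x = x) {σ τ : GQ}
    (h : ∀ a ∈ L, σ a = τ a) : R σ x = R τ x := by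
  have h1 : R (τ⁻¹ * σ) x = x := hL _ fun a ha => by
    show τ⁻¹ (σ a) = a
    rw [h a ha]
    exact τ.symm_apply_apply a
  have h2 : R τ (R (τ⁻¹ * σ) x) = R σ x := by
    rw [← Module.End.mul_apply, ← map_mul, mul_inv_cancel_left]
  rw [← h2, h1]

/-- An element with open stabiliser has a finite orbit. -/
theorem finite_orbit {x : T} {L : IntermediateField ℚ Qb} [FiniteDimensional ℚ L]
    (hL : ∀ σ : GQ, (∀ a ∈ L, σ a = a) → R σ x = x) :
    (Set.range fun σ : GQ => R σ x).Finite := by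
  classical
  let f : (Set.range fun σ : GQ => R σ x) → (L →ₐ[ℚ] Qb) := fun y =>
    ((Classical.choose y.2 : GQ) : Qb →ₐ[ℚ] Qb).comp L.val
  have hf : Function.Injective f := by
    intro y y' hyy'
    have hy := Classical.choose_spec y.2
    have hy' := Classical.choose_spec y'.2
    apply Subtype.ext
    rw [← hy, ← hy']
    refine apply_eq_of_agree hL fun a ha => ?_
    exact DFunLike.congr_fun hyy' ⟨a, ha⟩
  exact Set.finite_coe_iff.mp (Finite.of_injective f hf)

/-- Elements of the orbit span are fixed by the Galois group of the normal closure. -/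
theorem orbitRep_eq_one_of_fixes {x : T} {L : IntermediateField ℚ Qb}
    (hL : ∀ σ : GQ, (∀ a ∈ L, σ a = a) → R σ x = x) {σ : GQ}
    (hσ : ∀ a ∈ IntermediateField.normalClosure ℚ L Qb, σ a = a) : orbitRep R x σ = 1 := by
  ext ⟨y, hy⟩
  show R σ y = y
  induction hy using Submodule.span_induction with
  | mem y hy =>
    obtain ⟨τ, rfl⟩ := hy
    have h1 : R (τ⁻¹ * σ * τ) x = x := hL _ fun a ha => by
      show τ⁻¹ (σ (τ a)) = a
      have hτa : τ a ∈ IntermediateField.normalClosure ℚ L Qb := by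
        have : ((τ : Qb →ₐ[ℚ] Qb).comp L.val).fieldRange ≤
            IntermediateField.normalClosure ℚ L Qb :=
          AlgHom.fieldRange_le_normalClosure _
        exact this ⟨⟨a, ha⟩, rfl⟩
      rw [hσ _ hτa]
      exact τ.symm_apply_apply a
    have h2 : R τ (R (τ⁻¹ * σ * τ) x) = R σ (R τ x) := by
      rw [← Module.End.mul_apply, ← Module.End.mul_apply, ← map_mul, ← map_mul]
      congr 2
      group
    rw [← h2, h1]
  | zero => simp
  | add y z _ _ hy hz => rw [map_add, hy, hz]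
  | smul a y _ hy => rw [map_smul, hy]

end Orbit

section Core

variable {p : ℕ} [hp : Fact p.Prime] {N : ℕ}
variable {κ : Type} [Field κ] [Finite κ] [CharP κ p]
variable {k : Type} [Field k] (ι : κ →+* k)
variable {T : Type} [AddCommGroup T] [Module κ T] (R : GQ →* Module.End κ T)
variable (c : Nat.Primes → κ)

/-- The representation over `k` attached to a matrix representation over `κ`. -/
def matRep (ρ2 : GQ →* Matrix (Fin 2) (Fin 2) κ) : GQ →* Module.End k (Fin 2 → k) :=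
  ((Matrix.toLinAlgEquiv' (R := k) (n := Fin 2) : Matrix (Fin 2) (Fin 2) k ≃ₐ[k] _) :
      Matrix (Fin 2) (Fin 2) k →* Module.End k (Fin 2 → k)).comp
    ((ι.mapMatrix : Matrix (Fin 2) (Fin 2) κ →+* Matrix (Fin 2) (Fin 2) k) :
      Matrix (Fin 2) (Fin 2) κ →* Matrix (Fin 2) (Fin 2) k) |>.comp ρ2

theorem matRep_apply (ρ2 : GQ →* Matrix (Fin 2) (Fin 2) κ) (σ : GQ) :
    matRep ι ρ2 σ = Matrix.toLin' ((ρ2 σ).map ι) := rfl

theorem charpoly_matRep (ρ2 : GQ →* Matrix (Fin 2) (Fin 2) κ) (σ : GQ) :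
    LinearMap.charpoly (matRep ι ρ2 σ) =
      X ^ 2 - C (ι (ρ2 σ).trace) * X + C (ι (ρ2 σ).det) := by
  rw [matRep_apply, Matrix.charpoly_toLin', Matrix.charpoly_fin_two]
  rw [AddMonoidHom.map_trace ι (ρ2 σ), RingHom.map_det ι (ρ2 σ), RingHom.mapMatrix_apply]

/-- **(R6), layer A.** -/
theorem exists_residualRep_of_core (hN : N ≠ 0)
    (hQA : QuadAlgStatement κ) (hcheb : Fermat.Agent.Cheb.ChebExact)
    (x : T) (hx0 : x ≠ 0)
    (hxL : ∃ L : IntermediateField ℚ Qb, FiniteDimensional ℚ L ∧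
      ∀ σ : GQ, (∀ a ∈ L, σ a = a) → R σ x = x)
    (hunr : ∀ ℓ : ℕ, ℓ.Prime → ¬ ℓ ∣ N * p → ∀ A : ValuationSubring Qb, A.LiesOverPrime ℓ →
      ∀ σ ∈ A.inertiaSubgroupIn ℚ, ∀ y : T, R σ y = y)
    (hfrob : ∀ ℓ : ℕ, (hℓ : ℓ.Prime) → ¬ ℓ ∣ N * p → ∀ A : ValuationSubring Qb,
      A.LiesOverPrime ℓ → ∀ σ : GQ, A.IsFrobeniusAt σ ℓ → ∀ y : T,
        R σ (R σ y) - c ⟨ℓ, hℓ⟩ • R σ y + (ℓ : κ) • y = 0) :
    ∃ ρ : ResidualGaloisRep k,
      (∀ ℓ : ℕ, (hℓ : ℓ.Prime) → ¬ ℓ ∣ N → ℓ ≠ p → ∀ A : ValuationSubring Qb,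
        A.LiesOverPrime ℓ → ∀ σ : GQ, A.IsFrobeniusAt σ ℓ →
          LinearMap.charpoly (ρ.ρ σ) = X ^ 2 - C (ι (c ⟨ℓ, hℓ⟩)) * X + C (ℓ : k)) ∧
      ∀ ℓ : ℕ, ℓ.Prime → ¬ ℓ ∣ N * p → ρ.IsUnramifiedAt ℓ := by
  classical
  obtain ⟨L, hLfin, hL⟩ := hxL
  haveI := hLfin
  have hp' : p.Prime := hp.out
  haveI : Module.Finite κ (orbitSpan R x) := Module.Finite.span_of_finite κ (finite_orbit hL)
  haveI : Nontrivial (orbitSpan R x) :=
    ⟨⟨⟨x, self_mem_orbitSpan R x⟩, 0, fun h => hx0 (congrArg Subtype.val h)⟩⟩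
  set r := orbitRep R x with hr
  -- levels
  haveI : FiniteDimensional ℚ (IntermediateField.normalClosure ℚ L Qb) :=
    normalClosure.is_finiteDimensional ℚ L Qb
  obtain ⟨Lc, hLcfin, hLc⟩ := exists_finite_level_K p κ
  haveI := hLcfin
  set L' : IntermediateField ℚ Qb := IntermediateField.normalClosure ℚ L Qb ⊔ Lc with hL'
  haveI : FiniteDimensional ℚ L' := IntermediateField.finiteDimensional_sup _ _
  have hle1 : IntermediateField.normalClosure ℚ L Qb ≤ L' := le_sup_left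
  have hle2 : Lc ≤ L' := le_sup_right
  have hr1 : ∀ σ : GQ, (∀ a ∈ L', σ a = a) → r σ = 1 := fun σ hσ =>
    orbitRep_eq_one_of_fixes hL fun a ha => hσ a (hle1 ha)
  have hragree : ∀ σ τ : GQ, (∀ a ∈ L', σ a = τ a) → r σ = r τ := by
    intro σ τ h
    have h1 : r (τ⁻¹ * σ) = 1 := hr1 _ fun a ha => by
      show τ⁻¹ (σ a) = a
      rw [h a ha]
      exact τ.symm_apply_apply a
    have h2 : r σ = r τ * r (τ⁻¹ * σ) := by rw [← map_mul, mul_inv_cancel_left]
    rw [h2, h1, mul_one]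
  have hdagree : ∀ σ τ : GQ, (∀ a ∈ L', σ a = τ a) → cycloCharK p κ σ = cycloCharK p κ τ :=
    fun σ τ h => hLc σ τ fun a ha => h a (hle2 ha)
  -- Chebotarev
  have hNp : N * p ≠ 0 := mul_ne_zero hN hp'.ne_zero
  have hche : ∀ σ : GQ, ∃ q : ℕ, ∃ _ : q.Prime, ¬ q ∣ N * p ∧
      ∃ (P : ValuationSubring Qb) (φ : GQ), P.LiesOverPrime q ∧ P.IsFrobeniusAt φ q ∧
        ∀ a ∈ L', σ a = φ a := by
    intro σ
    obtain ⟨q, hq, hqT, P, φ, hP, hφ, h⟩ := hcheb L' inferInstance σ (N * p).primeFactors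
    exact ⟨q, hq, fun hdvd => hqT (Nat.mem_primeFactors.mpr ⟨hq, hdvd, hNp⟩), P, φ, hP, hφ, h⟩
  choose q hq hqNp P φ hP hφ hσφ using hche
  set t : GQ → κ := fun σ => c ⟨q σ, hq σ⟩ with ht
  set d : GQ →* κˣ := cycloCharK p κ with hd
  have hquadφ : ∀ ℓ (hℓ : ℓ.Prime), ¬ ℓ ∣ N * p → ∀ A : ValuationSubring Qb,
      A.LiesOverPrime ℓ → ∀ σ : GQ, A.IsFrobeniusAt σ ℓ → ∀ w : orbitSpan R x,
        r σ (r σ w) - c ⟨ℓ, hℓ⟩ • r σ w + ((d σ : κˣ) : κ) • w = 0 := by
    intro ℓ hℓ hℓNp A hA σ hσ w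
    have hℓp : ℓ ≠ p := fun h => hℓNp (h ▸ dvd_mul_left _ _)
    rw [hd, cycloCharK_frobenius p κ hℓ hℓp A hA hσ]
    apply Subtype.ext
    have h := hfrob ℓ hℓ hℓNp A hA σ hσ (w : T)
    simp only [hr]
    simpa using h
  have hquad : ∀ g w, r g (r g w) - t g • r g w + ((d g : κˣ) : κ) • w = 0 := by
    intro g w
    rw [hragree g (φ g) (hσφ g), hd, hdagree g (φ g) (hσφ g)]
    exact hquadφ (q g) (hq g) (hqNp g) (P g) (hP g) (φ g) (hφ g) w
  obtain ⟨ρ2, hρ2, htriv⟩ := hQA (orbitSpan R x) r d t hquad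
  -- uniqueness of `t`
  have htuniq : ∀ (g : GQ) (s : κ),
      (∀ w : orbitSpan R x, r g (r g w) - s • r g w + ((d g : κˣ) : κ) • w = 0) → s = t g := by
    intro g s hs
    by_contra hne
    have hall : ∀ w : orbitSpan R x, w = 0 := by
      intro w
      have h1 := hs (r g⁻¹ w)
      have h2 := hquad g (r g⁻¹ w)
      have h3 : r g (r g⁻¹ w) = w := by
        rw [← Module.End.mul_apply, ← map_mul, mul_inv_cancel, map_one]
        rfl
      rw [h3] at h1 h2
      have h4 : (s - t g) • w = 0 := by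
        rw [sub_smul]
        have h5 := h2.trans h1.symm
        have h6 : t g • w = s • w := by
          have := congrArg (fun z => r g w + ((d g : κˣ) : κ) • (r g⁻¹ w) - z) h5
          simpa using this
        rw [h6, sub_self]
      exact (smul_eq_zero.mp h4).resolve_left (sub_ne_zero.mpr hne)
    obtain ⟨a, b, hab⟩ := exists_pair_ne (orbitSpan R x)
    exact hab ((hall a).trans (hall b).symm)
  have hmat1 : ∀ σ : GQ, ρ2 σ = 1 → matRep ι ρ2 σ = 1 := by
    intro σ h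
    rw [matRep_apply, h, Matrix.map_one _ (map_zero ι) (map_one ι), Matrix.toLin'_one]
    rfl
  refine ⟨{ V := Fin 2 → k
            finrank_eq := by simp
            ρ := matRep ι ρ2
            factorsThroughFiniteLevel := ⟨L', inferInstance, fun σ hσ => ?_⟩ }, ?_, ?_⟩
  · have h1 : r σ = 1 := hr1 σ hσ
    have h2 : d σ = 1 := by
      have := hdagree σ 1 (fun a ha => by rw [hσ a ha]; rfl)
      rw [hd, this, map_one]
    exact hmat1 σ (htriv σ h1 h2)
  · intro ℓ hℓ hℓN hℓp A hA σ hσ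
    have hℓNp : ¬ ℓ ∣ N * p := by
      rw [hℓ.dvd_mul, not_or]
      exact ⟨hℓN, fun h => hℓp ((Nat.prime_dvd_prime_iff_eq hℓ hp').mp h)⟩
    show LinearMap.charpoly (matRep ι ρ2 σ) = _
    rw [charpoly_matRep, (hρ2 σ).1, (hρ2 σ).2,
      ← htuniq σ (c ⟨ℓ, hℓ⟩) (hquadφ ℓ hℓ hℓNp A hA σ hσ), hd,
      cycloCharK_frobenius p κ hℓ hℓp A hA hσ, map_natCast]
  · intro ℓ hℓ hℓNp A hA σ hσ
    have hℓp : ℓ ≠ p := fun h => hℓNp (h ▸ dvd_mul_left _ _)
    have h1 : r σ = 1 := by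
      ext w
      exact hunr ℓ hℓ hℓNp A hA σ hσ (w : T)
    have h2 : d σ = 1 := cycloCharK_eq_one_of_mem_inertia p κ hℓ hℓp A hA hσ
    exact hmat1 σ (htriv σ h1 h2)

end Core

end Fermat.Agent.Res

end
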