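import Fermat.Agent.Res.S29Core
import Fermat.Agent.Res.Formal
import Fermat.Prelude.Def_HeckeGalois_EichlerShimura

/-!
# Program R, node (R6), layer B: the S29 assembly for an abstract Hecke–Galois module `J`

`J` an abelian group with commuting actions of `HeckeAlg` and `G_ℚ`, every element with open
stabiliser, `SpecializationExists N p J`.  For a system of eigenvalues `c' : primes → k` (`k` a
field of characteristic `p`) whose eigen ideal `𝔪 = eigenIdeal c'` is maximal with finite residue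
field, contains `p`, and has `J[𝔪] ≠ 0`, there is a `ResidualGaloisRep k`, unramified outside
`Np`, with `charpoly (ρ Frob_ℓ) = X² - c'_ℓ X + ℓ` for all Frobenius elements at `ℓ ∤ Np`.
-/

set_option autoImplicit false
set_option linter.style.haveILetI false
set_option linter.unusedSectionVars false

open Polynomial ModularCurve

noncomputable section

namespace Fermat.Agent.Res

local notation "Qb" => AlgebraicClosure ℚ
local notation "GQ" => (AlgebraicClosure ℚ ≃ₐ[ℚ] AlgebraicClosure ℚ)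

variable {N p : ℕ} [hp : Fact p.Prime]
variable (J : Type) [AddCommGroup J] [Module HeckeAlg J] [DistribMulAction GQ J]
  [SMulCommClass GQ HeckeAlg J]

/-- **(R6), layer B.** -/
theorem exists_residualRep_of_eigenIdeal (hN : N ≠ 0) {k : Type} [Field k] [CharP k p]
    (c' : Nat.Primes → k)
    (hmax : (eigenIdeal c').IsMaximal) (hfin : Finite (HeckeAlg ⧸ eigenIdeal c'))
    (hpm : ((p : ℕ) : HeckeAlg) ∈ eigenIdeal c')
    (hQA : ∀ (κ : Type) [Field κ] [Finite κ], QuadAlgStatement κ)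
    (hcheb : Fermat.Agent.Cheb.ChebExact)
    (hspec : SpecializationExists (K := ℚ) (L := Qb) N p J)
    (hne : MTorsionNeBot HeckeAlg J (eigenIdeal c'))
    (hstab : ∀ x : J, ∃ L : IntermediateField ℚ Qb, FiniteDimensional ℚ L ∧
      ∀ σ : GQ, (∀ a ∈ L, σ a = a) → σ • x = x) :
    ∃ ρ : ResidualGaloisRep k,
      (∀ ℓ : ℕ, (hℓ : ℓ.Prime) → ¬ ℓ ∣ N → ℓ ≠ p → ∀ A : ValuationSubring Qb,
        A.LiesOverPrime ℓ → ∀ σ : GQ, A.IsFrobeniusAt σ ℓ →
          LinearMap.charpoly (ρ.ρ σ) = X ^ 2 - C (c' ⟨ℓ, hℓ⟩) * X + C (ℓ : k)) ∧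
      ∀ ℓ : ℕ, ℓ.Prime → ¬ ℓ ∣ N * p → ρ.IsUnramifiedAt ℓ := by
  classical
  set 𝔪 : Ideal HeckeAlg := eigenIdeal c' with h𝔪
  letI : Field (HeckeAlg ⧸ 𝔪) := Ideal.Quotient.field 𝔪
  haveI : Finite (HeckeAlg ⧸ 𝔪) := hfin
  -- the embedding of the residue field into `k`
  let ι : HeckeAlg ⧸ 𝔪 →+* k :=
    RingHom.kerLift (MvPolynomial.aeval (R := ℤ) c' : HeckeAlg →+* k)
  have hι : Function.Injective ι :=
    RingHom.kerLift_injective (MvPolynomial.aeval (R := ℤ) c' : HeckeAlg →+* k)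
  haveI : CharP (HeckeAlg ⧸ 𝔪) p := RingHom.charP ι hι p
  let c : Nat.Primes → HeckeAlg ⧸ 𝔪 := fun ℓ => Ideal.Quotient.mk 𝔪 (heckeGen ℓ)
  have hιc : ∀ ℓ, ι (c ℓ) = c' ℓ := fun ℓ => by
    show RingHom.kerLift _ (Ideal.Quotient.mk _ (heckeGen ℓ)) = _
    rw [RingHom.kerLift_mk]
    exact aeval_heckeGen c' ℓ
  -- a nonzero element of `J[𝔪]`
  obtain ⟨x, hx, hx0⟩ := Submodule.exists_mem_ne_zero_of_ne_bot hne
  -- `J[𝔪]` is killed by `p`
  have hpT : ∀ y : heckeTorsion J 𝔪, ∃ n : ℕ, p ^ n • (y : J) = 0 := fun y => by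
    refine ⟨1, ?_⟩
    have h1 := (mem_heckeTorsion_iff J 𝔪 (y : J)).mp y.2 _ hpm
    rw [Nat.cast_smul_eq_nsmul] at h1
    rw [pow_one]
    exact h1
  obtain ⟨hU, hF⟩ := unramifiedOutside_and_frobeniusQuadratic (K := ℚ) (L := Qb) N p J hspec
  obtain ⟨ρ, h1, h2⟩ := exists_residualRep_of_core (p := p) (N := N) (κ := HeckeAlg ⧸ 𝔪) ι
    (mTorsionGaloisRep (G := GQ) J 𝔪) c hN (hQA _) hcheb ⟨x, hx⟩
    (fun h => hx0 (congrArg Subtype.val h))
    (by
      obtain ⟨L, hL, h⟩ := hstab x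
      exact ⟨L, hL, fun σ hσ => Subtype.ext (h σ hσ)⟩)
    (fun ℓ hℓ hℓNp A hA σ hσ y => Subtype.ext (hU ℓ hℓ hℓNp A hA σ hσ (y : J) (hpT y)))
    (fun ℓ hℓ hℓNp A hA σ hσ y => by
      apply Subtype.ext
      have h := hF ℓ hℓ hℓNp A hA σ hσ (y : J) (hpT y)
      have h3 : ((ℓ : HeckeAlg ⧸ 𝔪) • y : heckeTorsion J 𝔪) = (ℓ : ℕ) • y := by
        rw [Nat.cast_smul_eq_nsmul]
      have h4 : ((c ⟨ℓ, hℓ⟩ • (mTorsionGaloisRep (G := GQ) J 𝔪 σ y) : heckeTorsion J 𝔪) : J) =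
          heckeGen ⟨ℓ, hℓ⟩ • (σ • (y : J)) := rfl
      rw [h3]
      simp only [Submodule.coe_add, Submodule.coe_sub, h4, coe_mTorsionGaloisRep_apply,
        Submodule.coe_smul_of_tower, ZeroMemClass.coe_zero]
      exact h)
  exact ⟨ρ, fun ℓ hℓ hℓN hℓp A hA σ hσ => by rw [h1 ℓ hℓ hℓN hℓp A hA σ hσ, hιc], h2⟩

end Fermat.Agent.Res

end
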