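import Fermat.Agent.Res.S29Assembly
import Fermat.Agent.Res.OpenStab
import Fermat.Agent.Jac.QuadAlg
import Fermat.Agent.Jac.HeckeCommUncond
import Fermat.Agent.Cheb.Cross.ChebExactMain

/-!
# Program R, node (R6): the S29 assembly with the landed inputs plugged in

`s29_of_support` : S29 at a level `N ≠ 0` from the three remaining inputs
* (H37) the statement of S37 at level `N` (applied to `HeckeOperatorsCommuteBar N`),
* (HJ8) `EigenformSupportAt N p (JZero N)` for all primes `p`,
* (R5) `EigenPackage N`.
Discharged here: (HJ7) `Jac.smulCommClass_GQ_heckeAlg`, (R2) `exists_finite_fixing_JZero`,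
(R3) `Jac.QA.exists_rep_two`, Chebotarev `Cheb.chebExact`.
-/

set_option autoImplicit false
set_option linter.style.haveILetI false
set_option linter.unusedSectionVars false

open Polynomial ModularCurve

noncomputable section

namespace Fermat.Agent.Res

local notation "Qb" => AlgebraicClosure ℚ
local notation "GQ" => (AlgebraicClosure ℚ ≃ₐ[ℚ] AlgebraicClosure ℚ)
local notation "Zb" => integralClosure ℤ ℂ

/-- **(R3)** in the shape consumed by the assembly. -/
theorem quadAlgStatement (κ : Type) [Field κ] [Finite κ] : QuadAlgStatement κ := by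
  intro W _ _ _ _ r d t h
  refine Fermat.Agent.Jac.QA.exists_rep_two r t d fun g => ?_
  ext w
  show r g (r g w) = t g • r g w - ((d g : κˣ) : κ) • w
  rw [eq_sub_iff_add_eq, ← sub_eq_zero, ← h g w]
  abel

/-- **S29 at a level `N ≠ 0`** from the S37 statement, `EigenformSupportAt` and `EigenPackage`. -/
theorem s29_of_support {N : ℕ} [NeZero N]
    (hS37 : ∀ p : ℕ, letI := heckeModuleBar N;
      ∀ (_ : SMulCommClass GQ HeckeAlg (JZero N)),
        SpecializationExists (K := ℚ) (L := Qb) N p (JZero N))
    (hsupp : ∀ p : ℕ, p.Prime → letI := heckeModuleBar N; EigenformSupportAt N p (JZero N))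
    (heig : EigenPackage N)
    {g : CuspForm (CongruenceSubgroup.Gamma0 N) 2} (hg : g.IsNormalizedEigenform)
    {p : ℕ} (hp : p.Prime) {k : Type} [Field k] [CharP k p] (φ : Zb →+* k) :
    ∃ ρ : ResidualGaloisRep k, ρ.IsAttachedTo g φ ∧
      ∀ ℓ : ℕ, ℓ.Prime → ¬ ℓ ∣ N * p → ρ.IsUnramifiedAt ℓ :=
  s29_of_inputs (Fermat.Agent.Jac.smulCommClass_GQ_heckeAlg N) hS37 hsupp
    (exists_finite_fixing_JZero N) heig quadAlgStatement Fermat.Agent.Cheb.chebExact hg hp φ

end Fermat.Agent.Res

end
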