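import Mathlib
import Fermat.Prelude.Def_FreyPackage_EigenformResidualAttachment
import Fermat.Prelude.Def_GaloisRep_Residual
import Fermat.Agent.Res.FreyFiniteLevel

/-!
# Program R, node (R7): S42 from the statement of S29

`s42_of_s29` : if every normalized eigenform has residual Galois representations attached to it
(the frozen statement S29, taken as a hypothesis), then for every Frey package `P` and every level
`M > 0` the eigenform residual attachment `P.EigenformResidualAttachmentAt M` holds (the frozen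
statement S42).

Construction: `K := ℤ̄ ⧸ 𝔪`, `ψ :=` the quotient map, `ρ` from S29, trace and determinant read off
the characteristic polynomial, and `F :=` the normal closure of the compositum of the finite levels
of `ρ` and of the `p`-torsion of the Frey curve (`FreyLevel.frey_galoisFactorsThroughFiniteLevel`).
-/

set_option autoImplicit false

namespace Fermat.Agent.Res.S42A

open Polynomial IntermediateField

/-- Trace and determinant of an endomorphism of a plane from its characteristic polynomial. -/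
theorem trace_det_of_charpoly {K V : Type*} [Field K] [AddCommGroup V] [Module K V]
    [Module.Finite K V] (hV : Module.finrank K V = 2) (f : Module.End K V) (t d : K)
    (h : f.charpoly = X ^ 2 - C t * X + C d) :
    LinearMap.trace K V f = t ∧ LinearMap.det f = d := by
  have : Nonempty (Module.Free.ChooseBasisIndex K V) := by
    rw [← Fintype.card_pos_iff, ← Module.finrank_eq_card_chooseBasisIndex, hV]
    norm_num
  constructor
  · rw [LinearMap.trace_eq_matrix_trace K (Module.Free.chooseBasis K V) f,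
      Matrix.trace_eq_neg_charpoly_coeff, ← LinearMap.charpoly_def, h,
      ← Module.finrank_eq_card_chooseBasisIndex, hV]
    simp [coeff_C, coeff_X_pow]
  · rw [LinearMap.det_eq_sign_charpoly_coeff, hV, h]
    simp [coeff_X, coeff_C, coeff_X_pow]

/-- An automorphism in the kernel of restriction to a normal intermediate field fixes it
pointwise. -/
theorem fixes_of_mem_ker_restrictNormalHom {F : Type*} [Field F] [Algebra ℚ F]
    [Algebra F (AlgebraicClosure ℚ)] [IsScalarTower ℚ F (AlgebraicClosure ℚ)]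
    [Normal ℚ F] {σ : AlgebraicClosure ℚ ≃ₐ[ℚ] AlgebraicClosure ℚ}
    (hσ : σ ∈ (AlgEquiv.restrictNormalHom (F := ℚ) (K₁ := AlgebraicClosure ℚ) F).ker)
    (x : F) : σ (algebraMap F (AlgebraicClosure ℚ) x) = algebraMap F (AlgebraicClosure ℚ) x := by
  rw [MonoidHom.mem_ker] at hσ
  have h1 := AlgEquiv.restrictNormal_commutes σ F x
  rw [← h1]
  change algebraMap F (AlgebraicClosure ℚ)
    ((AlgEquiv.restrictNormalHom (F := ℚ) (K₁ := AlgebraicClosure ℚ) F σ) x) = _
  rw [hσ]
  rfl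

/-- `IsGalois` for the default `ℚ`-algebra instance on an intermediate field, from normality for
the intermediate-field algebra instance. -/
theorem isGalois_ratAlgebra_of_normal (E : IntermediateField ℚ (AlgebraicClosure ℚ))
    (h : @Normal ℚ E _ _ E.algebra') : IsGalois ℚ E := by
  have e : (DivisionRing.toRatAlgebra : Algebra ℚ ↥E) = E.algebra' := Subsingleton.elim _ _
  rw [e]
  exact { to_normal := h }

/-- A finite subextension of `ℚ̄/ℚ` is a number field. -/
theorem numberField_of_finiteDimensional (E : IntermediateField ℚ (AlgebraicClosure ℚ))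
    [FiniteDimensional ℚ E] : NumberField E := by
  refine @NumberField.mk E _ inferInstance ?_
  convert ‹FiniteDimensional ℚ E›

/-- Every finite subextension of `ℚ̄/ℚ` is contained in a finite normal one. -/
theorem exists_finite_normal_ge (L : IntermediateField ℚ (AlgebraicClosure ℚ))
    [FiniteDimensional ℚ L] :
    ∃ E : IntermediateField ℚ (AlgebraicClosure ℚ), L ≤ E ∧ FiniteDimensional ℚ E ∧
      @Normal ℚ E _ _ E.algebra' := by
  have : IsAlgClosure ℚ (AlgebraicClosure ℚ) := AlgebraicClosure.instIsAlgClosure ℚ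
  have : Normal ℚ (AlgebraicClosure ℚ) := IsAlgClosure.normal ℚ (AlgebraicClosure ℚ)
  exact ⟨IntermediateField.normalClosure ℚ L (AlgebraicClosure ℚ),
    IntermediateField.le_normalClosure _, inferInstance, inferInstance⟩

/-- **(R7)** The frozen statement S42 follows from the frozen statement S29. -/
theorem s42_of_s29
    (hS29 : ∀ {N : ℕ} {g : CuspForm (CongruenceSubgroup.Gamma0 N) 2}
      (_ : g.IsNormalizedEigenform) {p : ℕ} (_ : p.Prime) {k : Type} [Field k] [CharP k p]
      (φ : integralClosure ℤ ℂ →+* k),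
      ∃ ρ : ResidualGaloisRep k, ρ.IsAttachedTo g φ ∧
        ∀ ℓ : ℕ, ℓ.Prime → ¬ ℓ ∣ N * p → ρ.IsUnramifiedAt ℓ)
    (P : FreyPackage) : ∀ M : ℕ, 0 < M → P.EigenformResidualAttachmentAt M := by
  intro M _ g hg 𝔪 h𝔪 hp𝔪
  let _ : Field (integralClosure ℤ ℂ ⧸ 𝔪) := Ideal.Quotient.field 𝔪
  have hp0 : ((P.p : ℕ) : integralClosure ℤ ℂ ⧸ 𝔪) = 0 := by
    have : ((P.p : ℕ) : integralClosure ℤ ℂ ⧸ 𝔪)
        = Ideal.Quotient.mk 𝔪 ((P.p : ℕ) : integralClosure ℤ ℂ) := by
      rw [map_natCast]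
    rw [this, Ideal.Quotient.eq_zero_iff_mem]
    exact hp𝔪
  have : CharP (integralClosure ℤ ℂ ⧸ 𝔪) P.p := (CharP.charP_iff_prime_eq_zero P.pp).2 hp0
  let _ : Algebra (ZMod P.p) (integralClosure ℤ ℂ ⧸ 𝔪) := ZMod.algebra _ P.p
  obtain ⟨ρ0, hatt, -⟩ := hS29 hg P.pp (k := integralClosure ℤ ℂ ⧸ 𝔪) (Ideal.Quotient.mk 𝔪)
  obtain ⟨L1, hL1, h1⟩ := ρ0.factorsThroughFiniteLevel
  obtain ⟨L2, hL2, h2⟩ := FreyLevel.frey_galoisFactorsThroughFiniteLevel P
  have : FiniteDimensional ℚ ↥(L1 ⊔ L2) := IntermediateField.finiteDimensional_sup L1 L2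
  obtain ⟨E, hLE, hfd, hnorm⟩ := exists_finite_normal_ge (L1 ⊔ L2)
  have hnf : NumberField E := numberField_of_finiteDimensional E
  have hgal : IsGalois ℚ E := isGalois_ratAlgebra_of_normal E hnorm
  -- trace / det from the characteristic polynomial
  have hcoeff : ∀ ℓ : ℕ, ℓ.Prime → ¬ ℓ ∣ M → ℓ ≠ P.p →
      ∀ A : ValuationSubring (AlgebraicClosure ℚ), A.LiesOverPrime ℓ →
        ∀ τ : AlgebraicClosure ℚ ≃ₐ[ℚ] AlgebraicClosure ℚ, A.IsFrobeniusAt τ ℓ →
          ∃ a : integralClosure ℤ ℂ, (a : ℂ) = ModularFormClass.qCoeff g ℓ ∧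
            LinearMap.trace (integralClosure ℤ ℂ ⧸ 𝔪) ρ0.V (ρ0.ρ τ) = Ideal.Quotient.mk 𝔪 a ∧
            LinearMap.det (ρ0.ρ τ) = ((ℓ : ℕ) : integralClosure ℤ ℂ ⧸ 𝔪) := by
    intro ℓ hℓ hℓM hℓp A hA τ hτ
    have hℓ0 : ((ℓ : ℕ) : integralClosure ℤ ℂ ⧸ 𝔪) ≠ 0 := by
      intro h0
      have hdvd : P.p ∣ ℓ := (CharP.cast_eq_zero_iff (integralClosure ℤ ℂ ⧸ 𝔪) P.p ℓ).1 h0
      exact hℓp ((Nat.prime_dvd_prime_iff_eq P.pp hℓ).1 hdvd).symm
    obtain ⟨a, ha, hchar⟩ := hatt ℓ hℓ hℓM hℓ0 A hA τ hτ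
    exact ⟨a, ha, trace_det_of_charpoly ρ0.finrank_eq _ _ _ hchar⟩
  refine ⟨integralClosure ℤ ℂ ⧸ 𝔪, inferInstance, inferInstance, ρ0.V, inferInstance, inferInstance,
    ρ0.ρ, Ideal.Quotient.mk 𝔪, ↥E, inferInstance, hnf, hgal, inferInstance,
    ?_, ?_, ρ0.finrank_eq, ?_, ?_, ?_⟩
  · refine IsScalarTower.of_algebraMap_eq fun q => ?_
    simp only [eq_ratCast, map_ratCast]
  · intro x hx
    rw [RingHom.mem_ker, Ideal.Quotient.eq_zero_iff_mem]
    exact hx
  · intro σ hσ
    have hfix := fixes_of_mem_ker_restrictNormalHom hσ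
    rw [Subgroup.mem_inf]
    constructor
    · rw [MonoidHom.mem_ker]
      exact h2 σ fun x hx => hfix ⟨x, hLE (le_sup_right (a := L1) hx)⟩
    · rw [MonoidHom.mem_ker]
      exact h1 σ fun x hx => hfix ⟨x, hLE (le_sup_left (b := L2) hx)⟩
  · intro ℓ hℓ hℓM hℓp A hA τ hτ
    obtain ⟨a, ha, htr, -⟩ := hcoeff ℓ hℓ hℓM hℓp A hA τ hτ
    exact ⟨a, ha, htr⟩
  · intro ℓ hℓ hℓM hℓp A hA τ hτ
    obtain ⟨a, -, -, hdet⟩ := hcoeff ℓ hℓ hℓM hℓp A hA τ hτ
    exact hdet

end Fermat.Agent.Res.S42A
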